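import Mathlib
import Fermat.Prelude.Def_ModularCurve_PeriodMapBundled
import Fermat.Agent.S22.Prim
import Fermat.Agent.S22.CoreBound
import Fermat.Agent.S22.CoreLim
import Fermat.Agent.S22.Decay

/-!
# S21 : existence of an equivariant primitive of a weight two cusp form

`exists_hasEquivariantPrimitive` : for `f : CuspForm (Gamma0 N) 2` there is `F : ℍ → ℂ` with
`ModularCurve.HasEquivariantPrimitive N f F`.

The primitive is `F τ = H τ - ℓ`, with `H` a holomorphic primitive of `f` on the upper half plane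
(`Fermat.Agent.S22.exists_isPrim`) and `ℓ` its limit at `i∞`.
-/

set_option autoImplicit false

open UpperHalfPlane CongruenceSubgroup Filter Topology

open scoped MatrixGroups

namespace Fermat.Agent.S21

open scoped ModularForm Manifold in
/-- slash by an element of `SL(2, ℤ)` in weight two, in the shape produced by
`Fermat.Agent.S22.IsPrim.comp_moeb`. -/
theorem primAux_slash_two_apply (h : ℍ → ℂ) (δ : SL(2, ℤ)) (τ : ℍ) :
    h ((Matrix.SpecialLinearGroup.mapGL ℝ δ) • τ) *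
        (((Matrix.SpecialLinearGroup.mapGL ℝ δ).det.val : ℂ) /
          denom (Matrix.SpecialLinearGroup.mapGL ℝ δ) τ ^ 2) =
      (h ∣[(2 : ℤ)] δ) τ := by
  rw [ModularForm.SL_slash_apply, Matrix.SpecialLinearGroup.det_mapGL]
  have h1 : (Matrix.SpecialLinearGroup.toGL ((Matrix.SpecialLinearGroup.map (Int.castRingHom ℝ)) δ))
      = Matrix.SpecialLinearGroup.mapGL ℝ δ := rfl
  rw [h1]
  have h2 : δ • τ = (Matrix.SpecialLinearGroup.mapGL ℝ δ) • τ := rfl
  rw [h2, zpow_neg]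
  simp [zpow_ofNat]

theorem primAux_det_mapGL_pos (δ : SL(2, ℤ)) :
    0 < (Matrix.SpecialLinearGroup.mapGL ℝ δ).det.val := by
  rw [Matrix.SpecialLinearGroup.det_mapGL]
  simp

open scoped ModularForm Manifold in
/-- A primitive of a weight two cusp form has a limit at every cusp, uniformly in the real
part. -/
theorem primAux_tendsto_cusp {Γ : Subgroup (GL (Fin 2) ℝ)} [Γ.IsArithmetic] (f : CuspForm Γ 2)
    {H : ℂ → ℂ} (hH : Fermat.Agent.S22.IsPrim H ⇑f) (δ : SL(2, ℤ)) :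
    ∃ L : ℂ, Tendsto (fun w : ℍ ↦ H ((δ • w : ℍ) : ℂ)) atImInfty (𝓝 L) := by
  set g : GL (Fin 2) ℝ := Matrix.SpecialLinearGroup.mapGL ℝ δ with hgdef
  have hg : 0 < g.det.val := primAux_det_mapGL_pos δ
  -- the translated primitive
  have hP := hH.comp_moeb hg
  have hfun : (fun τ : ℍ ↦ f (g • τ) * ((g.det.val : ℂ) / denom g τ ^ 2)) = (⇑f ∣[(2 : ℤ)] δ) :=
    funext fun τ ↦ primAux_slash_two_apply (⇑f) δ τ
  rw [hfun] at hP
  -- continuity and decay of the slashed form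
  have hcont : Continuous (⇑f ∣[(2 : ℤ)] δ) := by
    have h1 := (CuspFormClass.holo (CuspForm.translate f δ)).continuous
    rwa [CuspForm.coe_translate] at h1
  obtain ⟨c, hc, hdec⟩ := Fermat.Agent.S22.exp_decay_slash f δ
  -- the limit along vertical rays
  have hP1 : Fermat.Agent.S22.IsPrim (fun z ↦ H (Fermat.Agent.S22.moeb g z))
      (fun τ ↦ (⇑f ∣[(2 : ℤ)] δ) τ * (1 : Polynomial ℂ).eval (τ : ℂ)) := by
    simpa using hP
  obtain ⟨ℓ, hℓ⟩ := Fermat.Agent.S22.core_lim hcont hc hdec 1 hP1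
  obtain ⟨C, A, hCA⟩ := Fermat.Agent.S22.core_bound hcont hc hdec 0
  refine ⟨ℓ, ?_⟩
  -- the uniform bound
  have hbound : ∀ w : ℍ, A ≤ w.im →
      ‖H ((δ • w : ℍ) : ℂ) - ℓ‖ ≤ C * Real.exp (-c * w.im) := by
    intro w hw
    have hP0 : Fermat.Agent.S22.IsPrim (fun z ↦ H (Fermat.Agent.S22.moeb g z))
        (fun τ ↦ (⇑f ∣[(2 : ℤ)] δ) τ * ((τ : ℂ) - w) ^ 0) := by
      simpa using hP
    have hw_eq : (w : ℂ) = ((w.re : ℝ) : ℂ) + Complex.I * ((w.im : ℝ) : ℂ) := by
      apply Complex.ext <;> simp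
    have hlim : Tendsto (fun t : ℝ ↦ H (Fermat.Agent.S22.moeb g ((w : ℂ) + Complex.I * t)))
        atTop (𝓝 ℓ) := by
      have h1 := hℓ w.re 1 one_pos
      have h2 : Tendsto (fun t : ℝ ↦ w.im + t) atTop atTop :=
        tendsto_atTop_add_const_left atTop w.im tendsto_id
      have h3 := h1.comp h2
      refine h3.congr fun t ↦ ?_
      simp only [Function.comp_apply]
      congr 2
      conv_rhs => rw [hw_eq]
      push_cast
      ring
    have h4 := hCA w (fun z ↦ H (Fermat.Agent.S22.moeb g z)) ℓ hw hP0 hlim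
    have h5 : Fermat.Agent.S22.moeb g (w : ℂ) = ((δ • w : ℍ) : ℂ) :=
      Fermat.Agent.S22.moeb_coe hg w
    simpa only [h5] using h4
  -- conclusion
  rw [tendsto_iff_norm_sub_tendsto_zero]
  have hzero : Tendsto (fun w : ℍ ↦ C * Real.exp (-c * w.im)) atImInfty (𝓝 0) := by
    have h1 : Tendsto (fun w : ℍ ↦ w.im) atImInfty atTop := tendsto_comap
    have h2 : Tendsto (fun y : ℝ ↦ Real.exp (-c * y)) atTop (𝓝 0) := by
      have h3 : Tendsto (fun y : ℝ ↦ c * y) atTop atTop := tendsto_id.const_mul_atTop hc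
      have h4 := Real.tendsto_exp_neg_atTop_nhds_zero.comp h3
      refine h4.congr fun y ↦ ?_
      simp
    have h5 := (h2.comp h1).const_mul C
    simpa using h5
  refine squeeze_zero' (Eventually.of_forall fun w ↦ norm_nonneg _) ?_ hzero
  exact (atImInfty_mem _).mpr ⟨A, fun w hw ↦ hbound w hw⟩

open scoped ModularForm Manifold in
/-- A primitive of a weight two cusp form of level `Γ₀(N)` changes by a constant under
`Γ₀(N)`. -/
theorem primAux_equivariant (N : ℕ) (f : CuspForm (Gamma0 N) 2) {H : ℂ → ℂ}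
    (hH : Fermat.Agent.S22.IsPrim H ⇑f) (γ : Gamma0 N) :
    ∃ c : ℂ, ∀ z : ℍ, H (((γ : SL(2, ℤ)) • z : ℍ) : ℂ) = H (z : ℂ) + c := by
  set g : GL (Fin 2) ℝ := Matrix.SpecialLinearGroup.mapGL ℝ (γ : SL(2, ℤ)) with hgdef
  have hg : 0 < g.det.val := primAux_det_mapGL_pos _
  have hmem : g ∈ ((Gamma0 N : Subgroup SL(2, ℤ)) : Subgroup (GL (Fin 2) ℝ)) :=
    ⟨γ, γ.2, rfl⟩
  have hinv : ⇑f ∣[(2 : ℤ)] g = ⇑f := SlashInvariantForm.slash_action_eqn f g hmem
  have hP := hH.comp_moeb hg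
  have hfun : (fun τ : ℍ ↦ f (g • τ) * ((g.det.val : ℂ) / denom g τ ^ 2)) = ⇑f := by
    funext τ
    rw [primAux_slash_two_apply (⇑f) (γ : SL(2, ℤ)) τ]
    exact congrFun hinv τ
  rw [hfun] at hP
  obtain ⟨c, hc⟩ := hP.exists_eq_add_const hH
  refine ⟨c, fun z ↦ ?_⟩
  have h1 := hc z
  simp only [Fermat.Agent.S22.moeb_coe hg z] at h1
  exact h1

/-- Every weight-2 cusp form on `Γ₀(N)` has a primitive `F` on `ℍ` which vanishes at `i∞`,
changes by constants under `Γ₀(N)` and has a limit at every cusp `δ∞`. -/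
theorem exists_hasEquivariantPrimitive (N : ℕ) [NeZero N]
    (f : CuspForm (Gamma0 N) 2) :
    ∃ F : ℍ → ℂ, ModularCurve.HasEquivariantPrimitive N f F := by
  obtain ⟨H, hH⟩ := Fermat.Agent.S22.exists_isPrim (CuspFormClass.holo f)
  have hlim := primAux_tendsto_cusp f hH
  obtain ⟨L₁, hL₁⟩ := hlim 1
  refine ⟨fun τ ↦ H (τ : ℂ) - L₁, ?_, ?_, ?_, ?_⟩
  · intro τ
    have h1 : HasDerivAt (fun z : ℂ ↦ H z - L₁) (f τ) (τ : ℂ) := (hH τ).sub_const L₁
    refine h1.congr_of_eventuallyEq ?_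
    filter_upwards [UpperHalfPlane.eventuallyEq_coe_comp_ofComplex τ.im_pos] with z hz
    simp only [Function.comp_apply, id_eq] at hz ⊢
    rw [hz]
  · have h1 : Tendsto (fun w : ℍ ↦ H (w : ℂ)) atImInfty (𝓝 L₁) := by
      simpa using hL₁
    have h2 := h1.sub_const L₁
    simpa using h2
  · intro γ
    obtain ⟨c, hc⟩ := primAux_equivariant N f hH γ
    refine ⟨c, fun z ↦ ?_⟩
    simp only [hc z]
    ring
  · intro δ
    obtain ⟨L, hL⟩ := hlim δ
    exact ⟨L - L₁, hL.sub_const L₁⟩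

end Fermat.Agent.S21
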