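/-
S21 / task LIN (lead).  Uniqueness of the equivariant primitive, the canonical primitive `prim`,
linearity of the period map, `ExistsPeriodMapLinear`, formula for `periodHomPair`.
-/
import Mathlib
import Fermat.Prelude.Def_ModularCurve_PeriodHomPair
import Fermat.Agent.S21.Prim

set_option autoImplicit false

open UpperHalfPlane CongruenceSubgroup Filter Topology ModularCurve ModularCurve.Period
open scoped MatrixGroups

namespace Fermat.Agent.S21

variable {N : ℕ} [NeZero N]

/-- A function on `ℍ` whose pull-back to `ℂ` has zero derivative on `ℍ` is constant. -/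
theorem lin_const_of_hasDerivAt_zero {D : ℍ → ℂ}
    (hD : ∀ τ : ℍ, HasDerivAt (D ∘ ofComplex) 0 ↑τ) (z w : ℍ) : D z = D w := by
  have hopen : IsOpen {z : ℂ | 0 < z.im} := isOpen_upperHalfPlaneSet
  have hconn : IsPreconnected {z : ℂ | 0 < z.im} := (convex_halfSpace_im_gt 0).isPreconnected
  have hdiff : DifferentiableOn ℂ (D ∘ ofComplex) {z : ℂ | 0 < z.im} := by
    intro x hx
    have := hD ⟨x, hx⟩
    exact this.differentiableAt.differentiableWithinAt
  have hderiv : Set.EqOn (deriv (D ∘ ofComplex)) 0 {z : ℂ | 0 < z.im} := by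
    intro x hx
    have := hD ⟨x, hx⟩
    exact this.deriv
  have := hopen.is_const_of_deriv_eq_zero hconn hdiff hderiv
    (x := (z : ℂ)) (y := (w : ℂ)) z.im_pos w.im_pos
  simpa using this

theorem hasEquivariantPrimitive_unique {f : CuspForm (Gamma0 N) 2} {F₁ F₂ : ℍ → ℂ}
    (h₁ : HasEquivariantPrimitive N f F₁) (h₂ : HasEquivariantPrimitive N f F₂) : F₁ = F₂ := by
  have hD : ∀ τ : ℍ, HasDerivAt ((fun z => F₁ z - F₂ z) ∘ ofComplex) 0 ↑τ := by
    intro τ
    have h := (h₁.1 τ).sub (h₂.1 τ)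
    rw [sub_self] at h
    exact h
  have hlim : Tendsto (fun z => F₁ z - F₂ z) atImInfty (𝓝 0) := by
    simpa using h₁.2.1.sub h₂.2.1
  funext z
  have hconst : (fun w : ℍ => F₁ w - F₂ w) = fun _ => F₁ z - F₂ z := by
    funext w
    exact lin_const_of_hasDerivAt_zero (D := fun z => F₁ z - F₂ z) hD w z
  rw [hconst] at hlim
  have := tendsto_nhds_unique hlim tendsto_const_nhds
  exact sub_eq_zero.mp this.symm

/-- The canonical primitive of `f` (vanishing at `i∞`). -/
noncomputable def prim (N : ℕ) [NeZero N] (f : CuspForm (Gamma0 N) 2) : ℍ → ℂ :=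
  (exists_hasEquivariantPrimitive N f).choose

theorem prim_spec (f : CuspForm (Gamma0 N) 2) : HasEquivariantPrimitive N f (prim N f) :=
  (exists_hasEquivariantPrimitive N f).choose_spec

theorem prim_hasDerivAt (f : CuspForm (Gamma0 N) 2) (τ : ℍ) :
    HasDerivAt (prim N f ∘ ofComplex) (f τ) ↑τ :=
  (prim_spec f).1 τ

theorem prim_tendsto (f : CuspForm (Gamma0 N) 2) (δ : SL(2, ℤ)) :
    ∃ L : ℂ, Tendsto (fun w : ℍ => prim N f (δ • w)) atImInfty (𝓝 L) :=
  (prim_spec f).2.2.2 δ

theorem lin_hasEquivariantPrimitive_add {f g : CuspForm (Gamma0 N) 2} {F G : ℍ → ℂ}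
    (hF : HasEquivariantPrimitive N f F) (hG : HasEquivariantPrimitive N g G) :
    HasEquivariantPrimitive N (f + g) (F + G) := by
  refine ⟨fun τ => ?_, ?_, fun γ => ?_, fun δ => ?_⟩
  · have := (hF.1 τ).add (hG.1 τ)
    exact this
  · have h := hF.2.1.add hG.2.1
    rw [add_zero] at h
    exact h
  · obtain ⟨c, hc⟩ := hF.2.2.1 γ
    obtain ⟨d, hd⟩ := hG.2.2.1 γ
    refine ⟨c + d, fun z => ?_⟩
    have h1 := hc z
    have h2 := hd z
    simp only [Pi.add_apply]
    linear_combination h1 + h2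
  · obtain ⟨L, hL⟩ := hF.2.2.2 δ
    obtain ⟨M, hM⟩ := hG.2.2.2 δ
    exact ⟨L + M, hL.add hM⟩

theorem lin_hasEquivariantPrimitive_smul (c : ℂ) {f : CuspForm (Gamma0 N) 2} {F : ℍ → ℂ}
    (hF : HasEquivariantPrimitive N f F) :
    HasEquivariantPrimitive N (c • f) (c • F) := by
  refine ⟨fun τ => ?_, ?_, fun γ => ?_, fun δ => ?_⟩
  · have := (hF.1 τ).const_smul c
    exact this
  · have h := hF.2.1.const_smul c
    rw [smul_zero] at h
    exact h
  · obtain ⟨d, hd⟩ := hF.2.2.1 γ
    refine ⟨c * d, fun z => ?_⟩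
    have h1 := hd z
    simp only [Pi.smul_apply, smul_eq_mul]
    linear_combination c * h1
  · obtain ⟨L, hL⟩ := hF.2.2.2 δ
    exact ⟨c • L, hL.const_smul c⟩

theorem prim_add (f g : CuspForm (Gamma0 N) 2) : prim N (f + g) = prim N f + prim N g :=
  hasEquivariantPrimitive_unique (prim_spec (f + g))
    (lin_hasEquivariantPrimitive_add (prim_spec f) (prim_spec g))

theorem prim_smul (c : ℂ) (f : CuspForm (Gamma0 N) 2) : prim N (c • f) = c • prim N f :=
  hasEquivariantPrimitive_unique (prim_spec (c • f))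
    (lin_hasEquivariantPrimitive_smul c (prim_spec f))

/-- The period map is the period of the canonical primitive. -/
theorem prim_smul_sub (f : CuspForm (Gamma0 N) 2) (γ : Gamma0 N) (z : ℍ) :
    prim N f ((γ : SL(2, ℤ)) • z) - prim N f z = periodMap N f (Additive.ofMul γ) := by
  obtain ⟨F₀, h₀, hp⟩ := periodMap_def N f (prim_spec f)
  have hF : F₀ = prim N f := hasEquivariantPrimitive_unique h₀ (prim_spec f)
  subst hF
  rw [hp, IsEquivariantPrimitive.periodHom_apply]
  exact h₀.2.2.1.sub_eq_period γ z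

theorem periodMap_add (f g : CuspForm (Gamma0 N) 2) :
    periodMap N (f + g) = periodMap N f + periodMap N g := by
  refine AddMonoidHom.ext fun γ => ?_
  obtain ⟨γ, rfl⟩ := Additive.ofMul.surjective γ
  rw [AddMonoidHom.add_apply, ← prim_smul_sub (f + g) γ UpperHalfPlane.I,
    ← prim_smul_sub f γ UpperHalfPlane.I, ← prim_smul_sub g γ UpperHalfPlane.I, prim_add]
  simp only [Pi.add_apply]
  ring

theorem periodMap_smul (c : ℂ) (f : CuspForm (Gamma0 N) 2) :
    periodMap N (c • f) = c • periodMap N f := by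
  refine AddMonoidHom.ext fun γ => ?_
  obtain ⟨γ, rfl⟩ := Additive.ofMul.surjective γ
  rw [AddMonoidHom.smul_apply, ← prim_smul_sub (c • f) γ UpperHalfPlane.I,
    ← prim_smul_sub f γ UpperHalfPlane.I, prim_smul]
  simp only [Pi.smul_apply, smul_eq_mul]
  ring

theorem existsPeriodMapLinear (N : ℕ) [NeZero N] : ExistsPeriodMapLinear N :=
  ⟨{ toFun := periodMap N
     map_add' := periodMap_add
     map_smul' := fun c f => periodMap_smul c f }, fun _ => rfl⟩

theorem periodHomPair_apply (f g : CuspForm (Gamma0 N) 2) (γ : Gamma0 N) :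
    periodHomPair N (f, g) (Additive.ofMul γ) =
      (periodMap N f (Additive.ofMul γ) + periodMap N f (Additive.ofMul (jConjGamma0 N γ))) +
      (periodMap N g (Additive.ofMul γ) - periodMap N g (Additive.ofMul (jConjGamma0 N γ))) := by
  obtain ⟨pml, hpml, hdef⟩ := periodHomPair_def N (existsPeriodMapLinear N)
  rw [hdef]
  simp only [LinearMap.coprod_apply, LinearMap.comp_apply, LinearMap.add_apply,
    LinearMap.sub_apply, LinearMap.id_apply, hpml, AddMonoidHom.add_apply,
    AddMonoidHom.sub_apply, charInvolution_apply, toMul_ofMul]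

end Fermat.Agent.S21
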