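/-
S21 / task PARA.  Periods along parabolic elements vanish.
-/
import Mathlib
import Fermat.Prelude.Def_ModularCurve_PeriodMapBundled

set_option autoImplicit false

open UpperHalfPlane CongruenceSubgroup Filter Topology
open scoped MatrixGroups

namespace Fermat.Agent.S21

/-- If a coprime row vector `(r, s)` is fixed by `γ`, then `γ` is conjugate to a power of `T`. -/
private theorem h17_conj_of_row (γ : SL(2, ℤ)) (r s : ℤ) (hrs : IsCoprime r s)
    (h0 : r * γ 0 0 + s * γ 1 0 = r) (h1 : r * γ 0 1 + s * γ 1 1 = s) :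
    ∃ (δ : SL(2, ℤ)) (k : ℤ), γ = δ * ModularGroup.T ^ k * δ⁻¹ := by
  obtain ⟨g, -, hg⟩ := ModularGroup.bottom_row_surj (R := ℤ)
    (show ![r, s] ∈ {cd : Fin 2 → ℤ | IsCoprime (cd 0) (cd 1)} by simpa using hrs)
  have hg0 : g 1 0 = r := by simpa using congrFun hg 0
  have hg1 : g 1 1 = s := by simpa using congrFun hg 1
  have hdet : g 0 0 * g 1 1 - g 0 1 * g 1 0 = 1 := by
    have := g.det_coe
    rwa [Matrix.det_fin_two] at this
  have hdetγ : γ 0 0 * γ 1 1 - γ 0 1 * γ 1 0 = 1 := by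
    have := γ.det_coe
    rwa [Matrix.det_fin_two] at this
  set M : SL(2, ℤ) := g * γ * g⁻¹ with hM
  have hM10 : M 1 0 = 0 := by
    simp only [hM, Matrix.SpecialLinearGroup.coe_mul, Matrix.SpecialLinearGroup.coe_inv,
      Matrix.adjugate_fin_two, Matrix.mul_apply, Fin.sum_univ_two, Matrix.of_apply,
      Matrix.cons_val', Matrix.cons_val_zero, Matrix.cons_val_one, Matrix.empty_val',
      Matrix.cons_val_fin_one]
    rw [hg0, hg1]
    linear_combination s * h0 - r * h1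
  have hM11 : M 1 1 = 1 := by
    simp only [hM, Matrix.SpecialLinearGroup.coe_mul, Matrix.SpecialLinearGroup.coe_inv,
      Matrix.adjugate_fin_two, Matrix.mul_apply, Fin.sum_univ_two, Matrix.of_apply,
      Matrix.cons_val', Matrix.cons_val_zero, Matrix.cons_val_one, Matrix.empty_val',
      Matrix.cons_val_fin_one]
    rw [hg0, hg1]
    rw [hg0, hg1] at hdet
    linear_combination (-(g 0 1)) * h0 + (g 0 0) * h1 + hdet
  have hM00 : M 0 0 = 1 := by
    have := M.det_coe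
    rw [Matrix.det_fin_two, hM10, hM11] at this
    linarith
  refine ⟨g⁻¹, M 0 1, ?_⟩
  have hMT : M = ModularGroup.T ^ (M 0 1) := by
    ext i j
    rw [ModularGroup.coe_T_zpow]
    fin_cases i <;> fin_cases j <;> simp [hM00, hM10, hM11]
  rw [← hMT, hM]
  group

private theorem h17_conj_of_trace_two (γ : SL(2, ℤ))
    (h : ((γ : Matrix (Fin 2) (Fin 2) ℤ)).trace = 2) :
    ∃ (δ : SL(2, ℤ)) (k : ℤ), γ = δ * ModularGroup.T ^ k * δ⁻¹ := by
  rw [Matrix.trace_fin_two] at h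
  have hdetγ : γ 0 0 * γ 1 1 - γ 0 1 * γ 1 0 = 1 := by
    have := γ.det_coe
    rwa [Matrix.det_fin_two] at this
  by_cases hc : γ 1 0 = 0
  · -- upper triangular: `a d = 1`, `a + d = 2`, so `a = d = 1`
    have had : γ 0 0 * γ 1 1 = 1 := by rw [hc] at hdetγ; linarith
    have hd : γ 1 1 = 1 := by
      have h2 : (γ 1 1 - 1) ^ 2 = 0 := by linear_combination (γ 1 1) * h - had
      have h3 := (pow_eq_zero_iff (two_ne_zero)).mp h2
      linarith
    refine h17_conj_of_row γ 0 1 (isCoprime_zero_left.mpr isUnit_one) ?_ ?_ <;> simp [hc, hd]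
  · -- general case
    have hpos : 0 < Int.gcd (γ 1 0) (γ 0 0 - 1) :=
      Int.gcd_pos_of_ne_zero_left _ hc
    obtain ⟨r, s, hrs, hr, hs⟩ := Int.exists_gcd_one hpos
    set d : ℤ := (Int.gcd (γ 1 0) (γ 0 0 - 1) : ℤ) with hd
    have hd0 : d ≠ 0 := by
      rw [hd]; exact_mod_cast hpos.ne'
    have hcop : IsCoprime r (-s) := (Int.isCoprime_iff_gcd_eq_one.mpr hrs).neg_right
    refine h17_conj_of_row γ r (-s) hcop ?_ ?_
    · apply mul_right_cancel₀ hd0
      have e1 : (r * γ 0 0 + -s * γ 1 0) * d = (r * d) * γ 0 0 - (s * d) * γ 1 0 := by ring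
      rw [e1, ← hr, ← hs]; ring
    · apply mul_right_cancel₀ hd0
      have e1 : (r * γ 0 1 + -s * γ 1 1) * d = (r * d) * γ 0 1 - (s * d) * γ 1 1 := by ring
      have e2 : -s * d = -(s * d) := by ring
      rw [e1, e2, ← hr, ← hs]
      linear_combination (-1 : ℤ) * hdetγ + h

/-- An element of `SL(2, ℤ)` with `trace ^ 2 = 4` is `± δ T^k δ⁻¹`. -/
theorem exists_conj_T_zpow (γ : SL(2, ℤ))
    (h : ((γ : Matrix (Fin 2) (Fin 2) ℤ)).trace ^ 2 = 4) :
    ∃ (δ : SL(2, ℤ)) (k : ℤ),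
      γ = δ * ModularGroup.T ^ k * δ⁻¹ ∨ γ = -(δ * ModularGroup.T ^ k * δ⁻¹) := by
  have h' : ((γ : Matrix (Fin 2) (Fin 2) ℤ)).trace = 2 ∨
      ((γ : Matrix (Fin 2) (Fin 2) ℤ)).trace = -2 := by
    have : (((γ : Matrix (Fin 2) (Fin 2) ℤ)).trace - 2) *
        (((γ : Matrix (Fin 2) (Fin 2) ℤ)).trace + 2) = 0 := by linear_combination h
    rcases mul_eq_zero.mp this with h1 | h1
    · left; linarith
    · right; linarith
  rcases h' with h2 | h2
  · obtain ⟨δ, k, hk⟩ := h17_conj_of_trace_two γ h2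
    exact ⟨δ, k, Or.inl hk⟩
  · have h3 : (((-γ : SL(2, ℤ)) : Matrix (Fin 2) (Fin 2) ℤ)).trace = 2 := by
      rw [Matrix.SpecialLinearGroup.coe_neg, Matrix.trace_neg, h2]; norm_num
    obtain ⟨δ, k, hk⟩ := h17_conj_of_trace_two (-γ) h3
    exact ⟨δ, k, Or.inr (by rw [← hk, neg_neg])⟩

private theorem h17_tendsto_vadd (x : ℝ) :
    Tendsto (fun w : ℍ => x +ᵥ w) atImInfty atImInfty := by
  rw [atImInfty, tendsto_comap_iff]
  have : (UpperHalfPlane.im ∘ fun w : ℍ => x +ᵥ w) = UpperHalfPlane.im := by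
    funext w; simp [UpperHalfPlane.vadd_im]
  rw [this]
  exact tendsto_comap

/-- The equivariant primitive is invariant under every `γ ∈ Γ₀(N)` with `trace ^ 2 = 4`. -/
theorem period_eq_zero_of_trace {N : ℕ} [NeZero N] {f : CuspForm (Gamma0 N) 2} {F : ℍ → ℂ}
    (hF : ModularCurve.HasEquivariantPrimitive N f F) (γ : Gamma0 N)
    (hγ : (((γ : SL(2, ℤ)) : Matrix (Fin 2) (Fin 2) ℤ)).trace ^ 2 = 4) (z : ℍ) :
    F ((γ : SL(2, ℤ)) • z) = F z := by
  obtain ⟨-, -, hEq, hcusp⟩ := hF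
  obtain ⟨c, hc⟩ := hEq γ
  obtain ⟨δ, k, hk⟩ := exists_conj_T_zpow (γ : SL(2, ℤ)) hγ
  obtain ⟨L, hL⟩ := hcusp δ
  have key : ∀ w : ℍ, (γ : SL(2, ℤ)) • (δ • w) = δ • ((k : ℝ) +ᵥ w) := by
    intro w
    rw [← UpperHalfPlane.modular_T_zpow_smul, ← mul_smul, ← mul_smul]
    rcases hk with hk | hk
    · rw [hk]; congr 1; group
    · rw [hk, neg_mul, ModularGroup.SL_neg_smul]; congr 1; group
  have h1 : ∀ w : ℍ, F (δ • ((k : ℝ) +ᵥ w)) - F (δ • w) = c := fun w => by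
    rw [← key]; exact hc _
  have h2 : Tendsto (fun w : ℍ => F (δ • ((k : ℝ) +ᵥ w))) atImInfty (𝓝 L) :=
    hL.comp (h17_tendsto_vadd (k : ℝ))
  have h3 : Tendsto (fun w : ℍ => F (δ • ((k : ℝ) +ᵥ w)) - F (δ • w)) atImInfty (𝓝 (L - L)) :=
    h2.sub hL
  have h4 : c = 0 := by
    have h5 : Tendsto (fun _ : ℍ => c) atImInfty (𝓝 (L - L)) := Tendsto.congr h1 h3
    have h6 := tendsto_nhds_unique h5 tendsto_const_nhds
    rw [sub_self] at h6
    exact h6.symm
  have h7 := hc z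
  rw [h4, sub_eq_zero] at h7
  exact h7

/-- The equivariant primitive is `N`-periodic at every cusp. -/
theorem cusp_periodic {N : ℕ} [NeZero N] {f : CuspForm (Gamma0 N) 2} {F : ℍ → ℂ}
    (hF : ModularCurve.HasEquivariantPrimitive N f F) (δ : SL(2, ℤ)) (z : ℍ) :
    F (δ • ((N : ℝ) +ᵥ z)) = F (δ • z) := by
  have hTN : ModularGroup.T ^ (N : ℤ) ∈ Gamma N := by
    simpa using ModularGroup_T_pow_mem_Gamma (N : ℤ) (N : ℤ) dvd_rfl
  have hconj : δ * ModularGroup.T ^ (N : ℤ) * δ⁻¹ ∈ Gamma N :=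
    (Gamma_normal N).conj_mem _ hTN δ
  have hmem : δ * ModularGroup.T ^ (N : ℤ) * δ⁻¹ ∈ Gamma0 N := by
    rw [Gamma_mem] at hconj
    rw [Gamma0_mem]
    exact hconj.2.2.1
  have htr : (((δ * ModularGroup.T ^ (N : ℤ) * δ⁻¹ : SL(2, ℤ)) :
      Matrix (Fin 2) (Fin 2) ℤ)).trace ^ 2 = 4 := by
    have : (((δ * ModularGroup.T ^ (N : ℤ) * δ⁻¹ : SL(2, ℤ)) :
        Matrix (Fin 2) (Fin 2) ℤ)).trace = 2 := by
      rw [Matrix.SpecialLinearGroup.coe_mul, Matrix.trace_mul_comm,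
        ← Matrix.SpecialLinearGroup.coe_mul, inv_mul_cancel_left, ModularGroup.coe_T_zpow,
        Matrix.trace_fin_two]
      simp
    rw [this]; norm_num
  have h := period_eq_zero_of_trace hF ⟨_, hmem⟩ htr (δ • z)
  have e : (δ * ModularGroup.T ^ (N : ℤ) * δ⁻¹) • (δ • z) = δ • ((N : ℝ) +ᵥ z) := by
    rw [← mul_smul, inv_mul_cancel_right, mul_smul, UpperHalfPlane.modular_T_zpow_smul]
    simp
  rw [← e]
  exact h

end Fermat.Agent.S21
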