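/-
S21 / task SYMM (helper33).  A cusp form whose period map is odd (resp. even) under the
involution `γ ↦ jγj` (`j = diag(1,-1)`) is zero.
Uses as black boxes: `prim`, `prim_spec`, `prim_hasDerivAt`, `prim_tendsto`, `prim_smul_sub`
(Lin.lean), `cusp_periodic` (Para.lean), `maxmod` (MaxMod.lean).  Everything else is proved here.
-/
import Mathlib
import Fermat.Prelude.Def_ModularCurve_PeriodHomPair
import Fermat.Agent.S21.Lin
import Fermat.Agent.S21.Para
import Fermat.Agent.S21.MaxMod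

set_option autoImplicit false

open UpperHalfPlane CongruenceSubgroup Filter Topology ModularCurve ModularCurve.Period
open scoped MatrixGroups ComplexConjugate

namespace Fermat.Agent.S21

/-- The anti-holomorphic involution `z ↦ -conj z` of `ℍ`. -/
noncomputable def symmIota (z : ℍ) : ℍ := UpperHalfPlane.J • z

theorem symmIota_coe (z : ℍ) : ((symmIota z : ℍ) : ℂ) = -conj (z : ℂ) := coe_J_smul z

theorem symmIota_im (z : ℍ) : (symmIota z).im = z.im := by
  have := congrArg Complex.im (symmIota_coe z)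
  simpa using this

theorem symmIota_smul (δ : SL(2, ℤ)) (z : ℍ) :
    symmIota (δ • z) = jConjSL δ • symmIota z := by
  ext
  rw [symmIota_coe, coe_specialLinearGroup_apply, coe_specialLinearGroup_apply, symmIota_coe]
  simp [jConjSL_coe, map_div₀]
  ring

theorem symmIota_vadd (x : ℝ) (z : ℍ) : symmIota (x +ᵥ z) = (-x) +ᵥ symmIota z := by
  ext
  simp [symmIota_coe, coe_vadd]
  ring

theorem tendsto_symmIota : Tendsto symmIota atImInfty atImInfty := by
  simp only [atImInfty, tendsto_comap_iff, Function.comp_def, symmIota_im]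
  exact tendsto_comap

/-- The conjugate function `z ↦ conj (A (-conj z))`. -/
noncomputable def symmConj (A : ℍ → ℂ) (z : ℍ) : ℂ := conj (A (symmIota z))

theorem symmConj_hasDerivAt {A : ℍ → ℂ} {a : ℂ} (τ : ℍ)
    (hA : HasDerivAt (A ∘ ofComplex) a ↑(symmIota τ)) :
    HasDerivAt (symmConj A ∘ ofComplex) (-conj a) ↑τ := by
  rw [symmIota_coe] at hA
  have h1 := hA.conj_conj
  have h2 : HasDerivAt (fun w : ℂ => -w) (-1) (τ : ℂ) := hasDerivAt_neg _
  have h3 : (conj (-conj (τ : ℂ))) = (fun w : ℂ => -w) (τ : ℂ) := by simp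
  rw [h3] at h1
  have h4 := h1.comp (τ : ℂ) h2
  have h5 : conj a * (-1) = -conj a := by ring
  rw [h5] at h4
  refine h4.congr_of_eventuallyEq ?_
  have hopen : IsOpen {w : ℂ | 0 < w.im} := isOpen_lt continuous_const Complex.continuous_im
  filter_upwards [hopen.mem_nhds τ.im_pos] with w hw
  have hw' : 0 < (conj (-w)).im := by simpa using hw
  have e : symmIota (ofComplex w) = ofComplex (conj (-w)) := by
    ext
    rw [symmIota_coe, ofComplex_apply_of_im_pos hw, ofComplex_apply_of_im_pos hw']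
    simp
  simp only [Function.comp_apply, symmConj, e]

theorem symmConj_smul_sub {N : ℕ} {A : ℍ → ℂ} {P : Gamma0 N → ℂ}
    (hA : ∀ (γ : Gamma0 N) (z : ℍ), A ((γ : SL(2, ℤ)) • z) - A z = P γ) (γ : Gamma0 N) (z : ℍ) :
    symmConj A ((γ : SL(2, ℤ)) • z) - symmConj A z = conj (P (jConjGamma0 N γ)) := by
  simp only [symmConj, symmIota_smul]
  rw [← map_sub, ← hA (jConjGamma0 N γ) (symmIota z), jConjGamma0_coe]

theorem symmConj_cusp_periodic {N : ℕ} {A : ℍ → ℂ}
    (hA : ∀ (δ : SL(2, ℤ)) (z : ℍ), A (δ • ((N : ℝ) +ᵥ z)) = A (δ • z)) (δ : SL(2, ℤ)) (z : ℍ) :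
    symmConj A (δ • ((N : ℝ) +ᵥ z)) = symmConj A (δ • z) := by
  simp only [symmConj, symmIota_smul, symmIota_vadd]
  have h := hA (jConjSL δ) ((-(N : ℝ)) +ᵥ symmIota z)
  rw [vadd_vadd, add_neg_cancel, zero_vadd] at h
  rw [h]

theorem symmConj_tendsto {A : ℍ → ℂ}
    (hA : ∀ δ : SL(2, ℤ), ∃ L : ℂ, Tendsto (fun w : ℍ => A (δ • w)) atImInfty (𝓝 L))
    (δ : SL(2, ℤ)) :
    ∃ L : ℂ, Tendsto (fun w : ℍ => symmConj A (δ • w)) atImInfty (𝓝 L) := by
  obtain ⟨L, hL⟩ := hA (jConjSL δ)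
  refine ⟨conj L, ?_⟩
  have h1 := hL.comp tendsto_symmIota
  have h2 := (Complex.continuous_conj.tendsto L).comp h1
  refine h2.congr (fun w => ?_)
  simp only [Function.comp_apply, symmConj, symmIota_smul]

/-- Common core of the two statements: `ε = ±1`. -/
theorem symm_core (N : ℕ) [NeZero N] (f : CuspForm (Gamma0 N) 2) (ε : ℂ) (hε : conj ε = ε)
    (hε2 : ε * ε = 1)
    (h : ∀ γ : Gamma0 N, periodMap N f (Additive.ofMul (jConjGamma0 N γ)) =
      ε * periodMap N f (Additive.ofMul γ)) : f = 0 := by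
  set A : ℍ → ℂ := prim N f with hAdef
  set Ac : ℍ → ℂ := symmConj A with hAcdef
  set P : Gamma0 N → ℂ := fun γ => periodMap N f (Additive.ofMul γ) with hPdef
  have hAder : ∀ τ : ℍ, HasDerivAt (A ∘ ofComplex) (f τ) ↑τ := fun τ => prim_hasDerivAt f τ
  have hAcder : ∀ τ : ℍ, HasDerivAt (Ac ∘ ofComplex) (-conj (f (symmIota τ))) ↑τ :=
    fun τ => symmConj_hasDerivAt τ (hAder (symmIota τ))
  have hAsub : ∀ (γ : Gamma0 N) (z : ℍ), A ((γ : SL(2, ℤ)) • z) - A z = P γ :=
    fun γ z => prim_smul_sub f γ z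
  have hAcsub : ∀ (γ : Gamma0 N) (z : ℍ),
      Ac ((γ : SL(2, ℤ)) • z) - Ac z = conj (ε * P γ) := by
    intro γ z
    rw [symmConj_smul_sub hAsub γ z]
    simp only [hPdef, h γ]
  have hAper : ∀ (δ : SL(2, ℤ)) (z : ℍ), A (δ • ((N : ℝ) +ᵥ z)) = A (δ • z) :=
    fun δ z => cusp_periodic (prim_spec f) δ z
  have hAcper : ∀ (δ : SL(2, ℤ)) (z : ℍ), Ac (δ • ((N : ℝ) +ᵥ z)) = Ac (δ • z) :=
    symmConj_cusp_periodic hAper
  have hAlim : ∀ δ : SL(2, ℤ), ∃ L : ℂ, Tendsto (fun w : ℍ => A (δ • w)) atImInfty (𝓝 L) :=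
    fun δ => prim_tendsto f δ
  have hAclim : ∀ δ : SL(2, ℤ), ∃ L : ℂ, Tendsto (fun w : ℍ => Ac (δ • w)) atImInfty (𝓝 L) :=
    symmConj_tendsto hAlim
  -- first combination
  have h1 : ∀ τ : ℍ, f τ - ε * (-conj (f (symmIota τ))) = 0 := by
    refine maxmod N (fun z => A z - ε * Ac z) (fun τ => f τ - ε * (-conj (f (symmIota τ))))
      ?_ ?_ ?_ ?_
    · intro τ
      exact (hAder τ).sub ((hAcder τ).const_mul ε)
    · intro γ z
      have e1 : A ((γ : SL(2, ℤ)) • z) = A z + P γ := by linear_combination hAsub γ z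
      have e2 : Ac ((γ : SL(2, ℤ)) • z) = Ac z + conj (ε * P γ) := by
        linear_combination hAcsub γ z
      have e3 : A ((γ : SL(2, ℤ)) • z) - ε * Ac ((γ : SL(2, ℤ)) • z)
          = (A z - ε * Ac z) + (P γ - conj (P γ)) := by
        rw [e1, e2, map_mul, hε]
        linear_combination (-conj (P γ)) * hε2
      show (A ((γ : SL(2, ℤ)) • z) - ε * Ac ((γ : SL(2, ℤ)) • z)).re = (A z - ε * Ac z).re
      rw [e3, Complex.add_re]
      simp
    · intro δ z
      show A (δ • ((N : ℝ) +ᵥ z)) - ε * Ac (δ • ((N : ℝ) +ᵥ z)) = A (δ • z) - ε * Ac (δ • z)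
      rw [hAper, hAcper]
    · intro δ
      obtain ⟨L, hL⟩ := hAlim δ
      obtain ⟨Lc, hLc⟩ := hAclim δ
      exact ⟨L - ε * Lc, hL.sub (hLc.const_mul ε)⟩
  -- second combination
  have h2 : ∀ τ : ℍ, -Complex.I * (f τ + ε * (-conj (f (symmIota τ)))) = 0 := by
    refine maxmod N (fun z => -Complex.I * (A z + ε * Ac z))
      (fun τ => -Complex.I * (f τ + ε * (-conj (f (symmIota τ))))) ?_ ?_ ?_ ?_
    · intro τ
      exact ((hAder τ).add ((hAcder τ).const_mul ε)).const_mul (-Complex.I)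
    · intro γ z
      have e1 : A ((γ : SL(2, ℤ)) • z) = A z + P γ := by linear_combination hAsub γ z
      have e2 : Ac ((γ : SL(2, ℤ)) • z) = Ac z + conj (ε * P γ) := by
        linear_combination hAcsub γ z
      have e3 : -Complex.I * (A ((γ : SL(2, ℤ)) • z) + ε * Ac ((γ : SL(2, ℤ)) • z))
          = -Complex.I * (A z + ε * Ac z) + -Complex.I * (P γ + conj (P γ)) := by
        rw [e1, e2, map_mul, hε]
        linear_combination (-Complex.I * conj (P γ)) * hε2
      show (-Complex.I * (A ((γ : SL(2, ℤ)) • z) + ε * Ac ((γ : SL(2, ℤ)) • z))).re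
        = (-Complex.I * (A z + ε * Ac z)).re
      rw [e3, Complex.add_re]
      simp
    · intro δ z
      show -Complex.I * (A (δ • ((N : ℝ) +ᵥ z)) + ε * Ac (δ • ((N : ℝ) +ᵥ z)))
        = -Complex.I * (A (δ • z) + ε * Ac (δ • z))
      rw [hAper, hAcper]
    · intro δ
      obtain ⟨L, hL⟩ := hAlim δ
      obtain ⟨Lc, hLc⟩ := hAclim δ
      exact ⟨-Complex.I * (L + ε * Lc), (hL.add (hLc.const_mul ε)).const_mul (-Complex.I)⟩
  refine DFunLike.ext _ _ (fun τ => ?_)
  have h1' := h1 τ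
  have h2' := h2 τ
  have hI : (-Complex.I) ≠ 0 := neg_ne_zero.mpr Complex.I_ne_zero
  have h3 := (mul_eq_zero.mp h2').resolve_left hI
  have h4 : (2 : ℂ) * f τ = 0 := by linear_combination h1' + h3
  have h5 : f τ = 0 := by simpa using h4
  simpa using h5

theorem eq_zero_of_periodMap_jConj_neg (N : ℕ) [NeZero N] (f : CuspForm (Gamma0 N) 2)
    (h : ∀ γ : Gamma0 N, periodMap N f (Additive.ofMul (jConjGamma0 N γ)) =
      - periodMap N f (Additive.ofMul γ)) : f = 0 :=
  symm_core N f (-1) (by simp) (by ring) (fun γ => by rw [h γ]; ring)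

theorem eq_zero_of_periodMap_jConj_eq (N : ℕ) [NeZero N] (g : CuspForm (Gamma0 N) 2)
    (h : ∀ γ : Gamma0 N, periodMap N g (Additive.ofMul (jConjGamma0 N γ)) =
      periodMap N g (Additive.ofMul γ)) : g = 0 :=
  symm_core N g 1 (by simp) (by ring) (fun γ => by rw [h γ]; ring)

end Fermat.Agent.S21
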