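/-
S21: definitions for the abstract Shapiro bound (lead; frozen interface, do not edit).
-/
import Mathlib

set_option autoImplicit false

namespace Fermat.Agent.S21

/-- `v` sums to zero along every closed `h`-cycle of the action on `X`. -/
def OrbSumZero {G X : Type} [Group G] [MulAction G X] (h : G) (v : X → ℂ) : Prop :=
  ∀ (x : X) (n : ℕ), h ^ n • x = x → ∑ i ∈ Finset.range n, v (h ^ i • x) = 0

theorem OrbSumZero.zero {G X : Type} [Group G] [MulAction G X] (h : G) :
    OrbSumZero h (0 : X → ℂ) := by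
  intro x n _
  simp

theorem OrbSumZero.add {G X : Type} [Group G] [MulAction G X] {h : G} {v w : X → ℂ}
    (hv : OrbSumZero h v) (hw : OrbSumZero h w) : OrbSumZero h (v + w) := by
  intro x n hx
  simp only [Pi.add_apply, Finset.sum_add_distrib, hv x n hx, hw x n hx, add_zero]

theorem OrbSumZero.smul {G X : Type} [Group G] [MulAction G X] {h : G} {v : X → ℂ}
    (c : ℂ) (hv : OrbSumZero h v) : OrbSumZero h (c • v) := by
  intro x n hx
  simp only [Pi.smul_apply, smul_eq_mul, ← Finset.mul_sum, hv x n hx, mul_zero]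

/-- The space of pairs `(a, b)` (think `a = c(s)`, `b = c(t)` for a cocycle `c : G → (X → ℂ)`,
`c(gh)(x) = c(g)(h • x) + c(h)(x)`) whose cycle sums along `s`, `t` and `s * t` vanish. -/
def zSpace (G X : Type) [Group G] [MulAction G X] (s t : G) :
    Submodule ℂ ((X → ℂ) × (X → ℂ)) where
  carrier := {p | OrbSumZero s p.1 ∧ OrbSumZero t p.2 ∧
    OrbSumZero (s * t) (fun x => p.1 (t • x) + p.2 x)}
  zero_mem' := ⟨OrbSumZero.zero s, OrbSumZero.zero t, by
    intro x n _
    simp⟩
  add_mem' := by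
    rintro p q ⟨hp1, hp2, hp3⟩ ⟨hq1, hq2, hq3⟩
    refine ⟨hp1.add hq1, hp2.add hq2, ?_⟩
    have h := hp3.add hq3
    intro x n hx
    have h' := h x n hx
    simp only [Pi.add_apply] at h'
    simp only [Prod.fst_add, Prod.snd_add, Pi.add_apply]
    rw [← h']
    refine Finset.sum_congr rfl fun i _ => ?_
    ring
  smul_mem' := by
    rintro c p ⟨hp1, hp2, hp3⟩
    refine ⟨hp1.smul c, hp2.smul c, ?_⟩
    have h := hp3.smul c
    intro x n hx
    have h' := h x n hx
    simp only [Pi.smul_apply, smul_eq_mul] at h'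
    simp only [Prod.smul_fst, Prod.smul_snd, Pi.smul_apply, smul_eq_mul]
    rw [← h']
    refine Finset.sum_congr rfl fun i _ => ?_
    ring

theorem mem_zSpace {G X : Type} [Group G] [MulAction G X] {s t : G}
    {p : (X → ℂ) × (X → ℂ)} :
    p ∈ zSpace G X s t ↔ OrbSumZero s p.1 ∧ OrbSumZero t p.2 ∧
      OrbSumZero (s * t) (fun x => p.1 (t • x) + p.2 x) := Iff.rfl

end Fermat.Agent.S21
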