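/-
S21 / task SHAPIRO-DIM.  Dimension count for `zSpace`.
(helper39) rank–nullity for the orbit-sum matrix and its transpose.
-/
import Mathlib
import Fermat.Agent.S21.ShapiroDefs

set_option autoImplicit false

namespace Fermat.Agent.S21

open Module in
/-- rank–nullity for a matrix and its transpose. -/
theorem h39_finrank_ker_add_card {κ ι : Type} [Fintype κ] [Fintype ι] [DecidableEq κ]
    [DecidableEq ι] (A : Matrix κ ι ℂ) :
    finrank ℂ (LinearMap.ker A.mulVecLin) + Fintype.card κ
      = Fintype.card ι + finrank ℂ (LinearMap.ker A.transpose.mulVecLin) := by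
  have h1 := LinearMap.finrank_range_add_finrank_ker A.mulVecLin
  have h2 := LinearMap.finrank_range_add_finrank_ker A.transpose.mulVecLin
  have h3 : A.transpose.rank = A.rank := Matrix.rank_transpose A
  rw [Module.finrank_fintype_fun_eq_card] at h1 h2
  unfold Matrix.rank at h3
  omega

/-- The class of `g • x` in the orbit space of a subgroup containing `g`. -/
theorem h39_mk_smul {G X : Type} [Group G] [MulAction G X] (H : Subgroup G) {g : G}
    (hg : g ∈ H) (x : X) :
    (Quotient.mk'' (g • x) : MulAction.orbitRel.Quotient H X) = Quotient.mk'' x := by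
  apply Quotient.sound'
  exact ⟨⟨g, hg⟩, rfl⟩

/-- A function invariant under `t` and `s * t` is constant when `s, t` generate a transitive
group. -/
theorem h39_const_of_invariant {G X : Type} [Group G] [MulAction G X]
    [MulAction.IsPretransitive G X] (s t : G) (hgen : Subgroup.closure {s, t} = ⊤)
    (f : X → ℂ) (ht : ∀ x, f (t • x) = f x) (hst : ∀ x, f ((s * t) • x) = f x) (x y : X) :
    f x = f y := by
  let S : Subgroup G :=
    { carrier := {g | ∀ x, f (g • x) = f x}
      mul_mem' := by
        intro a b ha hb x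
        rw [mul_smul, ha, hb]
      one_mem' := by
        intro x
        rw [one_smul]
      inv_mem' := by
        intro a ha x
        have := ha (a⁻¹ • x)
        rw [smul_inv_smul] at this
        exact this.symm }
  have htS : t ∈ S := ht
  have hstS : s * t ∈ S := hst
  have hsS : s ∈ S := by
    have := S.mul_mem hstS (S.inv_mem htS)
    simpa using this
  have htop : S = ⊤ := by
    rw [eq_top_iff, ← hgen, Subgroup.closure_le]
    rintro g (rfl | rfl)
    · exact hsS
    · exact htS
  obtain ⟨g, rfl⟩ := MulAction.exists_smul_eq G y x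
  have hg : g ∈ S := by rw [htop]; trivial
  exact hg y

/-- Some positive power of `h` acts trivially on a finite set. -/
theorem h39_exists_pow_smul {G X : Type} [Group G] [MulAction G X] [Finite X] (h : G) :
    ∃ n : ℕ, 0 < n ∧ ∀ x : X, h ^ n • x = x := by
  classical
  have : Fintype X := Fintype.ofFinite X
  refine ⟨orderOf (MulAction.toPermHom G X h), orderOf_pos _, fun x => ?_⟩
  have h1 : (MulAction.toPermHom G X h) ^ orderOf (MulAction.toPermHom G X h) = 1 :=
    pow_orderOf_eq_one _
  rw [← map_pow] at h1
  have h2 := congrArg (fun e : Equiv.Perm X => e x) h1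
  simpa using h2

/-- `OrbSumZero h v` forces the sum of `v` over every `⟨h⟩`-orbit to vanish. -/
theorem h39_orbit_sum_eq_zero {G X : Type} [Group G] [MulAction G X] [Fintype X]
    (h : G) (v : X → ℂ) (hv : OrbSumZero h v)
    (O : MulAction.orbitRel.Quotient (Subgroup.zpowers h) X)
    [DecidablePred fun x : X =>
      (Quotient.mk'' x : MulAction.orbitRel.Quotient (Subgroup.zpowers h) X) = O] :
    ∑ x : X, (if (Quotient.mk'' x : MulAction.orbitRel.Quotient (Subgroup.zpowers h) X) = O
      then v x else 0) = 0 := by
  obtain ⟨n, hn, hpow⟩ := h39_exists_pow_smul (X := X) h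
  have key : ∀ i : ℕ, ∑ x : X,
      (if (Quotient.mk'' x : MulAction.orbitRel.Quotient (Subgroup.zpowers h) X) = O
        then v (h ^ i • x) else 0) =
      ∑ x : X, (if (Quotient.mk'' x : MulAction.orbitRel.Quotient (Subgroup.zpowers h) X) = O
        then v x else 0) := by
    intro i
    rw [← Equiv.sum_comp (MulAction.toPerm (h ^ i) : Equiv.Perm X)
      (fun x => if (Quotient.mk'' x : MulAction.orbitRel.Quotient (Subgroup.zpowers h) X) = O
        then v x else 0)]
    refine Finset.sum_congr rfl fun x _ => ?_
    simp only [MulAction.toPerm_apply]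
    exact if_congr (by rw [h39_mk_smul (Subgroup.zpowers h)
      (Subgroup.pow_mem _ (Subgroup.mem_zpowers h) i) x]) rfl rfl
  have hsum : ∑ i ∈ Finset.range n, ∑ x : X,
      (if (Quotient.mk'' x : MulAction.orbitRel.Quotient (Subgroup.zpowers h) X) = O
        then v (h ^ i • x) else 0) = 0 := by
    rw [Finset.sum_comm]
    refine Finset.sum_eq_zero fun x _ => ?_
    by_cases hx : (Quotient.mk'' x : MulAction.orbitRel.Quotient (Subgroup.zpowers h) X) = O
    · simp only [hx, if_true]
      exact hv x n (hpow x)
    · simp only [hx, if_false, Finset.sum_const_zero]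
  rw [Finset.sum_congr rfl (fun i _ => key i), Finset.sum_const, Finset.card_range,
    nsmul_eq_mul] at hsum
  rcases mul_eq_zero.mp hsum with h0 | h0
  · exact absurd (by exact_mod_cast h0) hn.ne'
  · exact h0

open Classical in
/-- The orbit-sum matrix: rows are the orbits of `s`, `t`, `s * t`; columns are two copies
of `X`. -/
noncomputable def h39_mat (G X : Type) [Group G] [MulAction G X] (s t : G) :
    Matrix (MulAction.orbitRel.Quotient (Subgroup.zpowers s) X ⊕
      (MulAction.orbitRel.Quotient (Subgroup.zpowers t) X ⊕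
        MulAction.orbitRel.Quotient (Subgroup.zpowers (s * t)) X)) (X ⊕ X) ℂ :=
  fun r c =>
    match r, c with
    | Sum.inl O, Sum.inl x => if Quotient.mk'' x = O then 1 else 0
    | Sum.inl _, Sum.inr _ => 0
    | Sum.inr (Sum.inl _), Sum.inl _ => 0
    | Sum.inr (Sum.inl O), Sum.inr x => if Quotient.mk'' x = O then 1 else 0
    | Sum.inr (Sum.inr O), Sum.inl y => if Quotient.mk'' (t⁻¹ • y) = O then 1 else 0
    | Sum.inr (Sum.inr O), Sum.inr x => if Quotient.mk'' x = O then 1 else 0

/-- Elements of `zSpace` give kernel vectors of the orbit-sum matrix. -/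
theorem h39_mulVec_eq_zero {G X : Type} [Group G] [MulAction G X] [Fintype X] (s t : G)
    (p : (X → ℂ) × (X → ℂ)) (hp : p ∈ zSpace G X s t) :
    (h39_mat G X s t).mulVec (Sum.elim p.1 p.2) = 0 := by
  classical
  obtain ⟨hp1, hp2, hp3⟩ := hp
  funext r
  rcases r with O | O | O
  · simp only [Matrix.mulVec, dotProduct, Fintype.sum_sum_type, h39_mat, Sum.elim_inl,
      Sum.elim_inr, zero_mul, Finset.sum_const_zero, add_zero, ite_mul, one_mul, Pi.zero_apply]
    exact h39_orbit_sum_eq_zero s p.1 hp1 O
  · simp only [Matrix.mulVec, dotProduct, Fintype.sum_sum_type, h39_mat, Sum.elim_inl,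
      Sum.elim_inr, zero_mul, Finset.sum_const_zero, zero_add, ite_mul, one_mul, Pi.zero_apply]
    exact h39_orbit_sum_eq_zero t p.2 hp2 O
  · simp only [Matrix.mulVec, dotProduct, Fintype.sum_sum_type, h39_mat, Sum.elim_inl,
      Sum.elim_inr, zero_mul, ite_mul, one_mul, Pi.zero_apply]
    rw [← Equiv.sum_comp (MulAction.toPerm t : Equiv.Perm X)
      (fun y => if (Quotient.mk'' (t⁻¹ • y) :
        MulAction.orbitRel.Quotient (Subgroup.zpowers (s * t)) X) = O then p.1 y else 0)]
    simp only [MulAction.toPerm_apply, inv_smul_smul]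
    rw [← Finset.sum_add_distrib]
    refine Eq.trans ?_ (h39_orbit_sum_eq_zero (s * t) (fun x => p.1 (t • x) + p.2 x) hp3 O)
    refine Finset.sum_congr rfl fun x _ => ?_
    split_ifs <;> simp

/-- Kernel vectors of the transposed orbit-sum matrix are multiples of `(-1, -1, 1)`. -/
theorem h39_transpose_ker {G X : Type} [Group G] [MulAction G X] [Fintype X] [Nonempty X]
    [MulAction.IsPretransitive G X] (s t : G) (hgen : Subgroup.closure {s, t} = ⊤)
    [Fintype (MulAction.orbitRel.Quotient (Subgroup.zpowers s) X)]
    [Fintype (MulAction.orbitRel.Quotient (Subgroup.zpowers t) X)]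
    [Fintype (MulAction.orbitRel.Quotient (Subgroup.zpowers (s * t)) X)]
    (w : MulAction.orbitRel.Quotient (Subgroup.zpowers s) X ⊕
      (MulAction.orbitRel.Quotient (Subgroup.zpowers t) X ⊕
        MulAction.orbitRel.Quotient (Subgroup.zpowers (s * t)) X) → ℂ)
    (hw : (h39_mat G X s t).transpose.mulVec w = 0) :
    ∃ c : ℂ, w = c • Sum.elim (fun _ => (-1 : ℂ)) (Sum.elim (fun _ => (-1 : ℂ)) (fun _ => 1)) := by
  classical
  have hl : ∀ y : X, w (Sum.inl (Quotient.mk'' y)) +
      w (Sum.inr (Sum.inr (Quotient.mk'' (t⁻¹ • y)))) = 0 := by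
    intro y
    have := congrFun hw (Sum.inl y)
    simpa only [Matrix.mulVec, dotProduct, Fintype.sum_sum_type, h39_mat, Matrix.transpose_apply,
      zero_mul, Finset.sum_const_zero, zero_add, ite_mul, one_mul, Pi.zero_apply,
      Finset.sum_ite_eq, Finset.mem_univ, if_true] using this
  have hr : ∀ x : X, w (Sum.inr (Sum.inl (Quotient.mk'' x))) +
      w (Sum.inr (Sum.inr (Quotient.mk'' x))) = 0 := by
    intro x
    have := congrFun hw (Sum.inr x)
    simpa only [Matrix.mulVec, dotProduct, Fintype.sum_sum_type, h39_mat, Matrix.transpose_apply,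
      zero_mul, Finset.sum_const_zero, zero_add, ite_mul, one_mul, Pi.zero_apply,
      Finset.sum_ite_eq, Finset.mem_univ, if_true] using this
  set γ : X → ℂ := fun x => w (Sum.inr (Sum.inr (Quotient.mk'' x))) with hγ
  have hγt : ∀ x, γ (t • x) = γ x := by
    intro x
    have h1 := hr (t • x)
    have h2 := hr x
    rw [h39_mk_smul (Subgroup.zpowers t) (Subgroup.mem_zpowers t) x] at h1
    have : γ (t • x) - γ x = 0 := by
      simp only [hγ]
      linear_combination h1 - h2
    exact sub_eq_zero.mp this
  have hγst : ∀ x, γ ((s * t) • x) = γ x := by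
    intro x
    simp only [hγ]
    rw [h39_mk_smul (Subgroup.zpowers (s * t)) (Subgroup.mem_zpowers (s * t)) x]
  obtain ⟨x₀⟩ := ‹Nonempty X›
  have hconst : ∀ x, γ x = γ x₀ := fun x => h39_const_of_invariant s t hgen γ hγt hγst x x₀
  refine ⟨γ x₀, ?_⟩
  funext r
  rcases r with O | O | O
  · induction O using Quotient.inductionOn' with
    | h y =>
      have h1 := hl y
      have h2 := hconst (t⁻¹ • y)
      simp only [hγ] at h2
      simp only [Pi.smul_apply, Sum.elim_inl, smul_eq_mul, mul_neg, mul_one]
      linear_combination h1 - h2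
  · induction O using Quotient.inductionOn' with
    | h x =>
      have h1 := hr x
      have h2 := hconst x
      simp only [hγ] at h2
      simp only [Pi.smul_apply, Sum.elim_inl, Sum.elim_inr, smul_eq_mul, mul_neg, mul_one]
      linear_combination h1 - h2
  · induction O using Quotient.inductionOn' with
    | h x =>
      have h2 := hconst x
      simp only [hγ] at h2
      simp only [Pi.smul_apply, Sum.elim_inr, smul_eq_mul, mul_one]
      exact h2

theorem finrank_zSpace_add_le {G X : Type} [Group G] [MulAction G X] [Finite X] [Nonempty X]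
    [MulAction.IsPretransitive G X] (s t : G) (hgen : Subgroup.closure {s, t} = ⊤) :
    Module.finrank ℂ ↥(zSpace G X s t)
      + Nat.card (MulAction.orbitRel.Quotient (Subgroup.zpowers s) X)
      + Nat.card (MulAction.orbitRel.Quotient (Subgroup.zpowers t) X)
      + Nat.card (MulAction.orbitRel.Quotient (Subgroup.zpowers (s * t)) X)
      ≤ 2 * Nat.card X + 1 := by
  classical
  have : Fintype X := Fintype.ofFinite X
  have : Fintype (MulAction.orbitRel.Quotient (Subgroup.zpowers s) X) := Fintype.ofFinite _
  have : Fintype (MulAction.orbitRel.Quotient (Subgroup.zpowers t) X) := Fintype.ofFinite _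
  have : Fintype (MulAction.orbitRel.Quotient (Subgroup.zpowers (s * t)) X) :=
    Fintype.ofFinite _
  -- `zSpace` embeds into the kernel of the orbit-sum matrix
  have h1 : Module.finrank ℂ ↥(zSpace G X s t) ≤
      Module.finrank ℂ (LinearMap.ker (h39_mat G X s t).mulVecLin) := by
    have hle : zSpace G X s t ≤ (LinearMap.ker (h39_mat G X s t).mulVecLin).map
        (LinearEquiv.sumArrowLequivProdArrow X X ℂ ℂ).toLinearMap := by
      intro p hp
      refine ⟨Sum.elim p.1 p.2, ?_, ?_⟩
      · rw [SetLike.mem_coe, LinearMap.mem_ker, Matrix.mulVecLin_apply]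
        exact h39_mulVec_eq_zero s t p hp
      · ext x <;> simp [LinearEquiv.sumArrowLequivProdArrow]
    calc Module.finrank ℂ ↥(zSpace G X s t)
        ≤ Module.finrank ℂ ((LinearMap.ker (h39_mat G X s t).mulVecLin).map
          (LinearEquiv.sumArrowLequivProdArrow X X ℂ ℂ).toLinearMap) :=
          Submodule.finrank_mono hle
      _ = Module.finrank ℂ (LinearMap.ker (h39_mat G X s t).mulVecLin) :=
          LinearEquiv.finrank_map_eq _ _
  -- the kernel of the transpose is at most one-dimensional
  have h2 : Module.finrank ℂ (LinearMap.ker (h39_mat G X s t).transpose.mulVecLin) ≤ 1 := by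
    have hle : LinearMap.ker (h39_mat G X s t).transpose.mulVecLin ≤
        Submodule.span ℂ {Sum.elim (fun _ => (-1 : ℂ))
          (Sum.elim (fun _ => (-1 : ℂ)) (fun _ => 1))} := by
      intro w hw
      rw [LinearMap.mem_ker, Matrix.mulVecLin_apply] at hw
      obtain ⟨c, rfl⟩ := h39_transpose_ker s t hgen w hw
      exact Submodule.smul_mem _ _ (Submodule.subset_span rfl)
    refine (Submodule.finrank_mono hle).trans ?_
    refine (finrank_span_le_card _).trans ?_
    simp
  have h3 := h39_finrank_ker_add_card (h39_mat G X s t)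
  rw [Fintype.card_sum, Fintype.card_sum, Fintype.card_sum] at h3
  simp only [Nat.card_eq_fintype_card]
  omega

end Fermat.Agent.S21
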