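/-
S21 / task SHAPIRO-MAP.  The Shapiro cocycle map.
-/
import Mathlib
import Fermat.Agent.S21.ShapiroDefs

set_option autoImplicit false

namespace Fermat.Agent.S21

section ShapiroMapAux

variable {G : Type} [Group G]

/-- A cocycle vanishes at the identity. -/
theorem h48_coc_one {X : Type} [MulAction G X] (C : G → X → ℂ)
    (hC : ∀ g h x, C (g * h) x = C g (h • x) + C h x) (x : X) : C 1 x = 0 := by
  have h := hC 1 1 x
  rw [mul_one, one_smul] at h
  exact left_eq_add.mp h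

/-- Cycle sums of a cocycle. -/
theorem h48_coc_pow {X : Type} [MulAction G X] (C : G → X → ℂ)
    (hC : ∀ g h x, C (g * h) x = C g (h • x) + C h x) (h : G) (x : X) (n : ℕ) :
    ∑ i ∈ Finset.range n, C h (h ^ i • x) = C (h ^ n) x := by
  induction n with
  | zero => simp [h48_coc_one C hC]
  | succ n ih => rw [Finset.sum_range_succ, ih, pow_succ', hC]; ring

/-- A cocycle at an inverse. -/
theorem h48_coc_inv {X : Type} [MulAction G X] (C : G → X → ℂ)
    (hC : ∀ g h x, C (g * h) x = C g (h • x) + C h x) (g : G) (x : X) :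
    C g⁻¹ x = - C g (g⁻¹ • x) := by
  have h := hC g g⁻¹ x
  rw [mul_inv_cancel, h48_coc_one C hC] at h
  exact eq_neg_of_add_eq_zero_right h.symm

/-- A cocycle vanishing on generators vanishes. -/
theorem h48_coc_eq_zero {X : Type} [MulAction G X] (C : G → X → ℂ)
    (hC : ∀ g h x, C (g * h) x = C g (h • x) + C h x) (s t : G)
    (hgen : Subgroup.closure {s, t} = ⊤) (hs : ∀ x, C s x = 0) (ht : ∀ x, C t x = 0)
    (g : G) (x : X) : C g x = 0 := by
  have hg : g ∈ Subgroup.closure ({s, t} : Set G) := by rw [hgen]; trivial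
  revert x
  induction hg using Subgroup.closure_induction with
  | mem y hy =>
    rcases hy with rfl | hy
    · exact hs
    · rw [Set.mem_singleton_iff] at hy
      subst hy
      exact ht
  | one => exact fun x => h48_coc_one C hC x
  | mul a b _ _ iha ihb =>
    intro x
    rw [hC, iha, ihb, add_zero]
  | inv a _ iha =>
    intro x
    rw [h48_coc_inv C hC, iha, neg_zero]

/-- The Γ-valued "transition" element attached to a coset and a group element. -/
noncomputable def h48_kappa (Γ : Subgroup G) (g : G) (x : G ⧸ Γ) : Γ :=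
  ⟨(Quotient.out (g • x))⁻¹ * (g * Quotient.out x), by
    rw [← QuotientGroup.eq]
    rw [QuotientGroup.out_eq']
    conv_lhs => rw [← QuotientGroup.out_eq' x]
    rfl⟩

theorem h48_kappa_mul (Γ : Subgroup G) (g h : G) (x : G ⧸ Γ) :
    h48_kappa Γ (g * h) x = h48_kappa Γ g (h • x) * h48_kappa Γ h x := by
  apply Subtype.ext
  simp only [h48_kappa, Subgroup.coe_mul, mul_smul]
  group

/-- The Shapiro cocycle attached to `φ` and `m`. -/
noncomputable def h48_coc (Γ : Subgroup G) (φ : Additive Γ →+ ℂ) (m : G ⧸ Γ → ℂ)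
    (g : G) (x : G ⧸ Γ) : ℂ :=
  φ (Additive.ofMul (h48_kappa Γ g x)) + (m (g • x) - m x)

theorem h48_coc_cocycle (Γ : Subgroup G) (φ : Additive Γ →+ ℂ) (m : G ⧸ Γ → ℂ)
    (g h : G) (x : G ⧸ Γ) :
    h48_coc Γ φ m (g * h) x = h48_coc Γ φ m g (h • x) + h48_coc Γ φ m h x := by
  simp only [h48_coc, h48_kappa_mul, ofMul_mul, map_add, mul_smul]
  ring

theorem h48_coc_add (Γ : Subgroup G) (φ ψ : Additive Γ →+ ℂ) (m m' : G ⧸ Γ → ℂ)
    (g : G) (x : G ⧸ Γ) :
    h48_coc Γ (φ + ψ) (m + m') g x = h48_coc Γ φ m g x + h48_coc Γ ψ m' g x := by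
  simp only [h48_coc, AddMonoidHom.add_apply, Pi.add_apply]
  ring

theorem h48_coc_smul (Γ : Subgroup G) (a : ℂ) (φ : Additive Γ →+ ℂ) (m : G ⧸ Γ → ℂ)
    (g : G) (x : G ⧸ Γ) :
    h48_coc Γ (a • φ) (a • m) g x = a * h48_coc Γ φ m g x := by
  simp only [h48_coc, AddMonoidHom.smul_apply, Pi.smul_apply, smul_eq_mul]
  ring

end ShapiroMapAux

theorem exists_shapiro_map {G : Type} [Group G] (Γ : Subgroup G) (s t : G)
    (hgen : Subgroup.closure {s, t} = ⊤)
    (P : Submodule ℂ (Additive Γ →+ ℂ))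
    (hP : ∀ φ ∈ P, ∀ γ : Γ,
      (∃ (g h : G) (k : ℤ), (h = s ∨ h = t ∨ h = s * t) ∧ (γ : G) = g⁻¹ * h ^ k * g) →
        φ (Additive.ofMul γ) = 0) :
    ∃ Λ : (↥P × (G ⧸ Γ → ℂ)) →ₗ[ℂ] ↥(zSpace G (G ⧸ Γ) s t),
      ∀ p, Λ p = 0 → p.1 = 0 ∧ ∀ x y : G ⧸ Γ, p.2 x = p.2 y := by
  classical
  -- cycle sums of the cocycle vanish for `h ∈ {s, t, s * t}`
  have key : ∀ (φ : Additive Γ →+ ℂ), φ ∈ P → ∀ (m : G ⧸ Γ → ℂ) (h : G),
      (h = s ∨ h = t ∨ h = s * t) → OrbSumZero h (h48_coc Γ φ m h) := by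
    intro φ hφ m h hh x n hx
    rw [h48_coc_pow _ (h48_coc_cocycle Γ φ m)]
    have h0 : φ (Additive.ofMul (h48_kappa Γ (h ^ n) x)) = 0 := by
      apply hP φ hφ
      refine ⟨Quotient.out x, h, (n : ℤ), hh, ?_⟩
      simp only [h48_kappa, hx, zpow_natCast, mul_assoc]
    simp only [h48_coc, h0, hx, sub_self, add_zero]
  let Λ : (↥P × (G ⧸ Γ → ℂ)) →ₗ[ℂ] ↥(zSpace G (G ⧸ Γ) s t) :=
    { toFun := fun p =>
        ⟨(h48_coc Γ p.1.1 p.2 s, h48_coc Γ p.1.1 p.2 t), by
          rw [mem_zSpace]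
          refine ⟨key _ p.1.2 _ s (Or.inl rfl), key _ p.1.2 _ t (Or.inr (Or.inl rfl)), ?_⟩
          have h3 := key _ p.1.2 p.2 (s * t) (Or.inr (Or.inr rfl))
          have he : (fun x => h48_coc Γ p.1.1 p.2 s (t • x) + h48_coc Γ p.1.1 p.2 t x)
              = h48_coc Γ p.1.1 p.2 (s * t) := by
            funext x
            rw [h48_coc_cocycle]
          simpa only [he] using h3⟩
      map_add' := by
        intro p q
        apply Subtype.ext
        apply Prod.ext
        · funext x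
          exact h48_coc_add Γ _ _ _ _ s x
        · funext x
          exact h48_coc_add Γ _ _ _ _ t x
      map_smul' := by
        intro a p
        apply Subtype.ext
        apply Prod.ext
        · funext x
          exact h48_coc_smul Γ a _ _ s x
        · funext x
          exact h48_coc_smul Γ a _ _ t x }
  refine ⟨Λ, ?_⟩
  rintro ⟨⟨φ, hφ⟩, m⟩ hp
  have hp' := congrArg Subtype.val hp
  have hs : ∀ x, h48_coc Γ φ m s x = 0 := fun x => congrFun (congrArg Prod.fst hp') x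
  have ht : ∀ x, h48_coc Γ φ m t x = 0 := fun x => congrFun (congrArg Prod.snd hp') x
  have hall : ∀ g x, h48_coc Γ φ m g x = 0 :=
    h48_coc_eq_zero _ (h48_coc_cocycle Γ φ m) s t hgen hs ht
  -- φ = 0
  have hφ0 : φ = 0 := by
    refine DFunLike.ext _ _ fun γ => ?_
    obtain ⟨γ, rfl⟩ := Additive.ofMul.surjective γ
    rw [AddMonoidHom.zero_apply]
    have hx0 : (γ : G) • ((1 : G) : G ⧸ Γ) = ((1 : G) : G ⧸ Γ) := by
      rw [MulAction.Quotient.smul_mk, QuotientGroup.eq]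
      simp
    have h1 := hall (γ : G) ((1 : G) : G ⧸ Γ)
    simp only [h48_coc, hx0, sub_self, add_zero] at h1
    -- ρ := out (1 : G ⧸ Γ) ∈ Γ
    have hρ : (Quotient.out ((1 : G) : G ⧸ Γ)) ∈ Γ := by
      have := QuotientGroup.out_eq' ((1 : G) : G ⧸ Γ)
      rw [QuotientGroup.eq] at this
      simpa using Γ.inv_mem this
    have hk : h48_kappa Γ (γ : G) ((1 : G) : G ⧸ Γ)
        = (⟨_, hρ⟩ : Γ)⁻¹ * γ * ⟨_, hρ⟩ := by
      apply Subtype.ext
      simp only [h48_kappa, hx0, Subgroup.coe_mul, Subgroup.coe_inv, mul_assoc]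
    rw [hk] at h1
    simp only [ofMul_mul, ofMul_inv, map_add, map_neg] at h1
    simpa using h1
  refine ⟨Subtype.ext hφ0, ?_⟩
  intro x y
  obtain ⟨g, rfl⟩ := MulAction.exists_smul_eq G x y
  have h1 := hall g x
  subst hφ0
  simp only [h48_coc, AddMonoidHom.zero_apply, zero_add] at h1
  exact (sub_eq_zero.mp h1).symm

end Fermat.Agent.S21
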