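/-
S21 / task SHAPIRO.  Abstract upper bound for homomorphisms of a finite-index subgroup
killing the conjugates of powers of `s`, `t`, `s * t` (no presentation needed).
(lead) combination of SHAPIRO-MAP and SHAPIRO-DIM.
-/
import Mathlib
import Fermat.Agent.S21.ShapiroMap
import Fermat.Agent.S21.ShapiroDim

set_option autoImplicit false

namespace Fermat.Agent.S21

/-- A linear map into a finite-dimensional space whose kernel consists of pairs `(0, const)`
has a finite-dimensional source `P × (X → ℂ)` and `dim P + #X ≤ dim Z + 1`. -/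
theorem shapiro_finrank_le_of_ker {X : Type} [Finite X] {P Z : Type} [AddCommGroup P]
    [Module ℂ P] [AddCommGroup Z] [Module ℂ Z] [FiniteDimensional ℂ Z]
    (Λ : (P × (X → ℂ)) →ₗ[ℂ] Z)
    (hΛ : ∀ p, Λ p = 0 → p.1 = 0 ∧ ∀ x y : X, p.2 x = p.2 y) :
    FiniteDimensional ℂ P ∧ Module.finrank ℂ P + Nat.card X ≤ Module.finrank ℂ Z + 1 := by
  classical
  have : Fintype X := Fintype.ofFinite X
  -- the kernel is contained in the line spanned by `(0, 1)`
  have hker : LinearMap.ker Λ ≤ Submodule.span ℂ {((0 : P), (fun _ : X => (1 : ℂ)))} := by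
    intro p hp
    obtain ⟨h1, h2⟩ := hΛ p (LinearMap.mem_ker.mp hp)
    rw [Submodule.mem_span_singleton]
    rcases isEmpty_or_nonempty X with hX | ⟨⟨x₀⟩⟩
    · refine ⟨0, ?_⟩
      refine Prod.ext ?_ ?_
      · simp [h1]
      · funext x
        exact (hX.false x).elim
    · refine ⟨p.2 x₀, ?_⟩
      refine Prod.ext ?_ ?_
      · simp [h1]
      · funext x
        simp [h2 x x₀]
  have hkerfin : FiniteDimensional ℂ (LinearMap.ker Λ) :=
    Submodule.finiteDimensional_of_le hker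
  have hkerdim : Module.finrank ℂ (LinearMap.ker Λ) ≤ 1 := by
    refine (Submodule.finrank_mono hker).trans ?_
    exact (finrank_span_le_card _).trans (by simp)
  -- the source is finite-dimensional
  have hquot : FiniteDimensional ℂ ((P × (X → ℂ)) ⧸ LinearMap.ker Λ) :=
    Module.Finite.equiv (Λ.quotKerEquivRange).symm
  have hsrc : FiniteDimensional ℂ (P × (X → ℂ)) :=
    Module.Finite.of_submodule_quotient (LinearMap.ker Λ)
  have hP : FiniteDimensional ℂ P :=
    FiniteDimensional.of_injective (LinearMap.inl ℂ P (X → ℂ)) LinearMap.inl_injective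
  refine ⟨hP, ?_⟩
  have hrn := LinearMap.finrank_range_add_finrank_ker Λ
  have hrange : Module.finrank ℂ (LinearMap.range Λ) ≤ Module.finrank ℂ Z :=
    Submodule.finrank_le _
  have hprod : Module.finrank ℂ (P × (X → ℂ)) = Module.finrank ℂ P + Nat.card X := by
    rw [Module.finrank_prod, Module.finrank_fintype_fun_eq_card, Nat.card_eq_fintype_card]
  omega

/-- Let `G = ⟨s, t⟩`, `Γ ≤ G` of finite index, `X = G ⧸ Γ`.  If every `φ ∈ P` kills all elements
of `Γ` of the form `g⁻¹ h ^ k g` with `h ∈ {s, t, s * t}`, then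
`dim P + #(X/⟨s⟩) + #(X/⟨t⟩) + #(X/⟨s t⟩) ≤ #X + 2`. -/
theorem shapiro_bound {G : Type} [Group G] (Γ : Subgroup G) [Γ.FiniteIndex] (s t : G)
    (hgen : Subgroup.closure {s, t} = ⊤)
    (P : Submodule ℂ (Additive Γ →+ ℂ))
    (hP : ∀ φ ∈ P, ∀ γ : Γ,
      (∃ (g h : G) (k : ℤ), (h = s ∨ h = t ∨ h = s * t) ∧ (γ : G) = g⁻¹ * h ^ k * g) →
        φ (Additive.ofMul γ) = 0) :
    FiniteDimensional ℂ P ∧
      Module.finrank ℂ P
        + Nat.card (MulAction.orbitRel.Quotient (Subgroup.zpowers s) (G ⧸ Γ))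
        + Nat.card (MulAction.orbitRel.Quotient (Subgroup.zpowers t) (G ⧸ Γ))
        + Nat.card (MulAction.orbitRel.Quotient (Subgroup.zpowers (s * t)) (G ⧸ Γ))
        ≤ Nat.card (G ⧸ Γ) + 2 := by
  obtain ⟨Λ, hΛ⟩ := exists_shapiro_map Γ s t hgen P hP
  obtain ⟨hfin, hle⟩ := shapiro_finrank_le_of_ker Λ hΛ
  refine ⟨hfin, ?_⟩
  have hdim : Module.finrank ℂ ↥(zSpace G (G ⧸ Γ) s t)
      + Nat.card (MulAction.orbitRel.Quotient (Subgroup.zpowers s) (G ⧸ Γ))
      + Nat.card (MulAction.orbitRel.Quotient (Subgroup.zpowers t) (G ⧸ Γ))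
      + Nat.card (MulAction.orbitRel.Quotient (Subgroup.zpowers (s * t)) (G ⧸ Γ))
      ≤ 2 * Nat.card (G ⧸ Γ) + 1 := finrank_zSpace_add_le (G := G) (X := G ⧸ Γ) s t hgen
  omega

end Fermat.Agent.S21
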