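/-
S21 / task UB.  `dim parabolicHoms ≤ 2 * genusFormula N`.
UB-INST (helper58): `parabolicHoms_bound_of_counts`, `two_mul_card_orbits_of_sq`,
`three_mul_card_orbits_of_cube` are proved (statements byte-identical to the stub), and so is
`finiteDimensional_parabolicHoms`.  `finrank_parabolicHoms_le` is reduced to the single count
`Nat.card (SL(2, ℤ) ⧸ Gamma0 N) = dedekindPsi N` (hypothesis of `finrank_parabolicHoms_le_of_index`).
-/
import Mathlib
import Fermat.Prelude.Def_ModularCurve_PeriodMap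
import Fermat.Prelude.Def_ModularCurve_GenusNumerics
import Fermat.Agent.S21.Shapiro
import Fermat.Agent.Lib.OrbitCount
import Fermat.Agent.Lib.Gamma0Orbits
import Fermat.Agent.Lib.Gamma0Elliptic
import Fermat.Agent.Lib.Gamma0CuspCount
import Fermat.Agent.Lib.Gamma0Cosets

set_option autoImplicit false

open CongruenceSubgroup ModularCurve ModularCurve.Period
open scoped MatrixGroups

namespace Fermat.Agent.S21

theorem h58_S_pow_four : ModularGroup.S ^ 4 = 1 := by decide

theorem h58_ST_pow_six : (ModularGroup.S * ModularGroup.T) ^ 6 = 1 := by decide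

/-- a homomorphism to `ℂ` kills torsion elements. -/
theorem h58_addHom_eq_zero_of_pow_eq_one {Γ : Subgroup SL(2, ℤ)} (φ : Additive Γ →+ ℂ) (γ : Γ)
    (n : ℕ) (hn : n ≠ 0) (h : (γ : SL(2, ℤ)) ^ n = 1) : φ (Additive.ofMul γ) = 0 := by
  have h1 : γ ^ n = 1 := Subtype.ext (by simpa using h)
  have h2 : n • φ (Additive.ofMul γ) = 0 := by
    rw [← map_nsmul, ← ofMul_pow, h1, ofMul_one, map_zero]
  rcases smul_eq_zero.mp h2 with h3 | h3
  · exact absurd h3 hn
  · exact h3

/-- conjugates of powers of a torsion element are torsion. -/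
theorem h58_conj_zpow_pow_eq_one {G : Type} [Group G] (g h : G) (k : ℤ) (n : ℕ)
    (hn : h ^ n = 1) : (g⁻¹ * h ^ k * g) ^ n = 1 := by
  have h1 : g⁻¹ * h ^ k * g = MulAut.conj g⁻¹ (h ^ k) := by simp
  rw [h1, ← map_pow, ← zpow_natCast, ← zpow_mul, mul_comm, zpow_mul, zpow_natCast, hn, one_zpow,
    map_one]

/-- conjugates of powers of `T` have trace `2`. -/
theorem h58_trace_conj_T_zpow (g : SL(2, ℤ)) (k : ℤ) :
    ((g⁻¹ * ModularGroup.T ^ k * g : SL(2, ℤ)) : Matrix (Fin 2) (Fin 2) ℤ).trace = 2 := by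
  have h1 : ((g⁻¹ * ModularGroup.T ^ k * g : SL(2, ℤ)) : Matrix (Fin 2) (Fin 2) ℤ) =
      ((g⁻¹ : SL(2, ℤ)) : Matrix (Fin 2) (Fin 2) ℤ) *
        ((ModularGroup.T ^ k : SL(2, ℤ)) : Matrix (Fin 2) (Fin 2) ℤ) *
        (g : Matrix (Fin 2) (Fin 2) ℤ) := by
    rw [Matrix.SpecialLinearGroup.coe_mul, Matrix.SpecialLinearGroup.coe_mul]
  have h2 : (g : Matrix (Fin 2) (Fin 2) ℤ) * ((g⁻¹ : SL(2, ℤ)) : Matrix (Fin 2) (Fin 2) ℤ) = 1 := by
    rw [← Matrix.SpecialLinearGroup.coe_mul, mul_inv_cancel, Matrix.SpecialLinearGroup.coe_one]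
  rw [h1, Matrix.trace_mul_cycle, h2, Matrix.one_mul, ModularGroup.coe_T_zpow,
    Matrix.trace_fin_two_of]
  norm_num

/-- `shapiro_bound` instantiated with `G = SL(2, ℤ)`, `Γ = Gamma0 N`, `s = S`, `t = T` and
`P = parabolicHoms` (no coset counts needed). -/
theorem h58_shapiro_inst (N : ℕ) [NeZero N] :
    FiniteDimensional ℂ ↥(parabolicHoms ℂ (Gamma0 N) ℂ) ∧
      Module.finrank ℂ ↥(parabolicHoms ℂ (Gamma0 N) ℂ)
        + Nat.card (MulAction.orbitRel.Quotient (Subgroup.zpowers ModularGroup.S)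
            (SL(2, ℤ) ⧸ Gamma0 N))
        + Nat.card (MulAction.orbitRel.Quotient (Subgroup.zpowers ModularGroup.T)
            (SL(2, ℤ) ⧸ Gamma0 N))
        + Nat.card (MulAction.orbitRel.Quotient
            (Subgroup.zpowers (ModularGroup.S * ModularGroup.T)) (SL(2, ℤ) ⧸ Gamma0 N))
        ≤ Nat.card (SL(2, ℤ) ⧸ Gamma0 N) + 2 :=
  shapiro_bound (Gamma0 N) ModularGroup.S ModularGroup.T
    SpecialLinearGroup.SL2Z_generators (parabolicHoms ℂ (Gamma0 N) ℂ) (by
      rintro φ hφ γ ⟨g, h, k, hh, hγ⟩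
      rcases hh with rfl | rfl | rfl
      · exact h58_addHom_eq_zero_of_pow_eq_one φ γ 4 (by norm_num)
          (by rw [hγ]; exact h58_conj_zpow_pow_eq_one g _ k 4 h58_S_pow_four)
      · apply (mem_parabolicHoms_iff.mp hφ) γ
        rw [hγ, h58_trace_conj_T_zpow]
        norm_num
      · exact h58_addHom_eq_zero_of_pow_eq_one φ γ 6 (by norm_num)
          (by rw [hγ]; exact h58_conj_zpow_pow_eq_one g _ k 6 h58_ST_pow_six))

/-- task UB-INST: the bound from the coset counts (instantiate `shapiro_bound` with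
`G = SL(2, ℤ)`, `Γ = Gamma0 N`, `s = S`, `t = T`). -/
theorem parabolicHoms_bound_of_counts (N : ℕ) [NeZero N]
    (hX : Nat.card (SL(2, ℤ) ⧸ Gamma0 N) = ModularCurve.dedekindPsi N)
    (hS : 2 * Nat.card (MulAction.orbitRel.Quotient (Subgroup.zpowers ModularGroup.S)
      (SL(2, ℤ) ⧸ Gamma0 N)) = ModularCurve.dedekindPsi N + ModularCurve.nuTwo N)
    (hR : 3 * Nat.card (MulAction.orbitRel.Quotient
      (Subgroup.zpowers (ModularGroup.S * ModularGroup.T))
      (SL(2, ℤ) ⧸ Gamma0 N)) = ModularCurve.dedekindPsi N + 2 * ModularCurve.nuThree N)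
    (hT : Nat.card (MulAction.orbitRel.Quotient (Subgroup.zpowers ModularGroup.T)
      (SL(2, ℤ) ⧸ Gamma0 N)) = ModularCurve.cuspCount N) :
    FiniteDimensional ℂ ↥(parabolicHoms ℂ (Gamma0 N) ℂ) ∧
      (Module.finrank ℂ ↥(parabolicHoms ℂ (Gamma0 N) ℂ) : ℚ) ≤
        2 * ModularCurve.genusFormula N := by
  have key := h58_shapiro_inst N
  refine ⟨key.1, ?_⟩
  have h2 := key.2
  rw [hX, hT] at h2
  have h2' : (Module.finrank ℂ ↥(parabolicHoms ℂ (Gamma0 N) ℂ) : ℚ)
      + (Nat.card (MulAction.orbitRel.Quotient (Subgroup.zpowers ModularGroup.S)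
          (SL(2, ℤ) ⧸ Gamma0 N)) : ℚ)
      + (ModularCurve.cuspCount N : ℚ)
      + (Nat.card (MulAction.orbitRel.Quotient
          (Subgroup.zpowers (ModularGroup.S * ModularGroup.T)) (SL(2, ℤ) ⧸ Gamma0 N)) : ℚ)
      ≤ (ModularCurve.dedekindPsi N : ℚ) + 2 := by exact_mod_cast h2
  have hS' : (2 : ℚ) * (Nat.card (MulAction.orbitRel.Quotient (Subgroup.zpowers ModularGroup.S)
      (SL(2, ℤ) ⧸ Gamma0 N)) : ℚ)
      = (ModularCurve.dedekindPsi N : ℚ) + (ModularCurve.nuTwo N : ℚ) := by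
    exact_mod_cast hS
  have hR' : (3 : ℚ) * (Nat.card (MulAction.orbitRel.Quotient
      (Subgroup.zpowers (ModularGroup.S * ModularGroup.T)) (SL(2, ℤ) ⧸ Gamma0 N)) : ℚ)
      = (ModularCurve.dedekindPsi N : ℚ) + 2 * (ModularCurve.nuThree N : ℚ) := by
    exact_mod_cast hR
  unfold ModularCurve.genusFormula
  linarith

/-- generic Burnside count for an involution (task UB-INST). -/
theorem two_mul_card_orbits_of_sq {G X : Type} [Group G] [MulAction G X] [Finite X] (g : G)
    (hg : ∀ x : X, (g * g) • x = x) :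
    2 * Nat.card (MulAction.orbitRel.Quotient (Subgroup.zpowers g) X) =
      Nat.card X + Nat.card (MulAction.fixedBy X g) :=
  Fermat.Agent.Lib.two_mul_card_orbits_zpowers g (fun x => by rw [pow_two]; exact hg x)

/-- generic Burnside count for an element acting with order dividing 3 (task UB-INST). -/
theorem three_mul_card_orbits_of_cube {G X : Type} [Group G] [MulAction G X] [Finite X] (g : G)
    (hg : ∀ x : X, (g * g * g) • x = x) :
    3 * Nat.card (MulAction.orbitRel.Quotient (Subgroup.zpowers g) X) =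
      Nat.card X + 2 * Nat.card (MulAction.fixedBy X g) :=
  Fermat.Agent.Lib.three_mul_card_orbits_zpowers g (fun x => by rw [pow_succ, pow_two]; exact hg x)

theorem finiteDimensional_parabolicHoms (N : ℕ) [NeZero N] :
    FiniteDimensional ℂ ↥(parabolicHoms ℂ (Gamma0 N) ℂ) :=
  (h58_shapiro_inst N).1

/-- the final bound, from the index formula `[SL(2, ℤ) : Γ₀(N)] = ψ(N)` alone (all other counts
are taken from `Fermat.Agent.Lib`). -/
theorem finrank_parabolicHoms_le_of_index (N : ℕ) [NeZero N]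
    (hX : Nat.card (SL(2, ℤ) ⧸ Gamma0 N) = ModularCurve.dedekindPsi N) :
    (Module.finrank ℂ ↥(parabolicHoms ℂ (Gamma0 N) ℂ) : ℚ) ≤ 2 * ModularCurve.genusFormula N :=
  (parabolicHoms_bound_of_counts N hX
    (by rw [Fermat.Agent.Lib.Gamma0Orbits.two_mul_card_orbits_S, hX,
      Fermat.Agent.Lib.card_fixedBy_S])
    (by rw [Fermat.Agent.Lib.Gamma0Orbits.three_mul_card_orbits_ST, hX,
      Fermat.Agent.Lib.card_fixedBy_ST])
    (Fermat.Agent.Lib.card_orbits_T N)).2

theorem finrank_parabolicHoms_le (N : ℕ) [NeZero N] :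
    (Module.finrank ℂ ↥(parabolicHoms ℂ (Gamma0 N) ℂ) : ℚ) ≤ 2 * ModularCurve.genusFormula N :=
  finrank_parabolicHoms_le_of_index N (Fermat.Agent.Lib.card_quotient_Gamma0 N)

end Fermat.Agent.S21
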