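/-
S21 / task ASM (lead).  Assembly of the Eichler–Shimura statement from the modules,
conditional on the dimension formula (statement S20).
-/
import Mathlib
import Fermat.Prelude.Def_ModularCurve_PeriodHomPair
import Fermat.Prelude.Def_ModularCurve_GenusNumerics
import Fermat.Agent.S21.Lin
import Fermat.Agent.S21.Para
import Fermat.Agent.S21.Symm
import Fermat.Agent.S21.UpperBound

set_option autoImplicit false

open UpperHalfPlane CongruenceSubgroup Filter Topology ModularCurve ModularCurve.Period
open scoped MatrixGroups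

namespace Fermat.Agent.S21

variable {N : ℕ} [NeZero N]

theorem periodMap_mem_parabolicHoms (f : CuspForm (Gamma0 N) 2) :
    periodMap N f ∈ parabolicHoms ℂ (Gamma0 N) ℂ := by
  rw [mem_parabolicHoms_iff]
  intro γ hγ
  rw [← prim_smul_sub f γ UpperHalfPlane.I, period_eq_zero_of_trace (prim_spec f) γ hγ, sub_self]

omit [NeZero N] in
theorem trace_jConjGamma0 (γ : Gamma0 N) :
    (((jConjGamma0 N γ : Gamma0 N) : SL(2, ℤ)) : Matrix (Fin 2) (Fin 2) ℤ).trace
      = (((γ : Gamma0 N) : SL(2, ℤ)) : Matrix (Fin 2) (Fin 2) ℤ).trace := by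
  rw [jConjGamma0_coe, jConjSL_coe, jConjMat_trace]

theorem periodHomPair_mem_parabolicHoms (x : CuspForm (Gamma0 N) 2 × CuspForm (Gamma0 N) 2) :
    periodHomPair N x ∈ parabolicHoms ℂ (Gamma0 N) ℂ := by
  obtain ⟨f, g⟩ := x
  rw [mem_parabolicHoms_iff]
  intro γ hγ
  have hγ' : (((jConjGamma0 N γ : Gamma0 N) : SL(2, ℤ)) : Matrix (Fin 2) (Fin 2) ℤ).trace ^ 2
      = 4 := by rw [trace_jConjGamma0]; exact hγ
  have h1 := (mem_parabolicHoms_iff (R := ℂ)).mp (periodMap_mem_parabolicHoms f) γ hγ
  have h2 := (mem_parabolicHoms_iff (R := ℂ)).mp (periodMap_mem_parabolicHoms f) _ hγ'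
  have h3 := (mem_parabolicHoms_iff (R := ℂ)).mp (periodMap_mem_parabolicHoms g) γ hγ
  have h4 := (mem_parabolicHoms_iff (R := ℂ)).mp (periodMap_mem_parabolicHoms g) _ hγ'
  rw [periodHomPair_apply, h1, h2, h3, h4]
  simp

theorem range_periodHomPair_le :
    LinearMap.range (periodHomPair N) ≤ parabolicHoms ℂ (Gamma0 N) ℂ := by
  rintro _ ⟨x, rfl⟩
  exact periodHomPair_mem_parabolicHoms x

theorem periodHomPair_injective : Function.Injective (periodHomPair N) := by
  rw [← LinearMap.ker_eq_bot, LinearMap.ker_eq_bot']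
  rintro ⟨f, g⟩ h
  have E : ∀ γ : Gamma0 N,
      (periodMap N f (Additive.ofMul γ) + periodMap N f (Additive.ofMul (jConjGamma0 N γ))) +
      (periodMap N g (Additive.ofMul γ) - periodMap N g (Additive.ofMul (jConjGamma0 N γ))) = 0 := by
    intro γ
    rw [← periodHomPair_apply, h]
    rfl
  have hf : ∀ γ : Gamma0 N, periodMap N f (Additive.ofMul (jConjGamma0 N γ)) =
      - periodMap N f (Additive.ofMul γ) := by
    intro γ
    have e1 := E γ
    have e2 := E (jConjGamma0 N γ)
    rw [jConjGamma0_jConjGamma0] at e2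
    linear_combination (e1 + e2) / 2
  have hg : ∀ γ : Gamma0 N, periodMap N g (Additive.ofMul (jConjGamma0 N γ)) =
      periodMap N g (Additive.ofMul γ) := by
    intro γ
    have e1 := E γ
    have e2 := E (jConjGamma0 N γ)
    rw [jConjGamma0_jConjGamma0] at e2
    linear_combination (e2 - e1) / 2
  rw [eq_zero_of_periodMap_jConj_neg N f hf, eq_zero_of_periodMap_jConj_eq N g hg]
  rfl

/-- Eichler–Shimura, given the dimension formula. -/
theorem eichlerShimura_of_dim (N : ℕ) [NeZero N]
    (hdim : (Module.finrank ℂ (CuspForm (Gamma0 N) 2) : ℚ) = ModularCurve.genusFormula N) :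
    Function.Injective (ModularCurve.periodHomPair N)
      ∧ LinearMap.range (ModularCurve.periodHomPair N)
          = ModularCurve.Period.parabolicHoms ℂ (CongruenceSubgroup.Gamma0 N) ℂ := by
  refine ⟨periodHomPair_injective (N := N), ?_⟩
  haveI := finiteDimensional_parabolicHoms N
  have hle := range_periodHomPair_le (N := N)
  -- the domain is finite-dimensional since it embeds into `parabolicHoms`
  haveI hfinR : FiniteDimensional ℂ ↥(LinearMap.range (periodHomPair N)) :=
    Submodule.finiteDimensional_of_le hle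
  haveI hfinD : FiniteDimensional ℂ (CuspForm (Gamma0 N) 2 × CuspForm (Gamma0 N) 2) :=
    Module.Finite.equiv
      (LinearEquiv.ofInjective (periodHomPair N) (periodHomPair_injective (N := N))).symm
  haveI hfinS : FiniteDimensional ℂ (CuspForm (Gamma0 N) 2) :=
    Module.Finite.of_surjective (LinearMap.fst ℂ (CuspForm (Gamma0 N) 2) (CuspForm (Gamma0 N) 2))
      LinearMap.fst_surjective
  have hrange : Module.finrank ℂ ↥(LinearMap.range (periodHomPair N)) =
      2 * Module.finrank ℂ (CuspForm (Gamma0 N) 2) := by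
    rw [LinearMap.finrank_range_of_inj (periodHomPair_injective (N := N)), Module.finrank_prod]
    ring
  refine Submodule.eq_of_le_of_finrank_le hle ?_
  have h1 := finrank_parabolicHoms_le N
  have h2 : (Module.finrank ℂ ↥(parabolicHoms ℂ (Gamma0 N) ℂ) : ℚ) ≤
      (Module.finrank ℂ ↥(LinearMap.range (periodHomPair N)) : ℚ) := by
    rw [hrange]
    push_cast
    rw [hdim]
    exact h1
  exact_mod_cast h2

end Fermat.Agent.S21
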