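/-
S21 / task DISC (helper67).  A holomorphic periodic function on `ℍ` with a limit at `i∞` factors
through the `q`-disc.
-/
import Mathlib

set_option autoImplicit false

open UpperHalfPlane Filter Topology
open scoped Manifold

namespace Fermat.Agent.S21

theorem exists_disc_function (N : ℕ) [NeZero N] (F : ℍ → ℂ)
    (hdiff : ∀ τ : ℍ, DifferentiableAt ℂ (F ∘ ofComplex) ↑τ)
    (hper : ∀ z : ℍ, F ((N : ℝ) +ᵥ z) = F z)
    (hlim : ∃ L : ℂ, Tendsto F atImInfty (𝓝 L)) :
    ∃ g : ℂ → ℂ, DifferentiableOn ℂ g (Metric.ball 0 1) ∧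
      ∀ z : ℍ, g (Function.Periodic.qParam N z) = F z := by
  have hN : (0 : ℝ) < (N : ℝ) := Nat.cast_pos.mpr (NeZero.pos N)
  -- periodicity of `F ∘ ofComplex` on all of `ℂ`
  have hfper : Function.Periodic (F ∘ ofComplex) ((N : ℝ) : ℂ) := by
    intro w
    by_cases hw : 0 < Complex.im w
    · have hw' : 0 < Complex.im (w + ((N : ℝ) : ℂ)) := by simpa using hw
      simp only [Function.comp_apply, ofComplex_apply_of_im_pos hw', ofComplex_apply_of_im_pos hw]
      rw [← hper ⟨w, hw⟩]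
      congr 1
      ext
      simp [add_comm]
    · have hw0 : Complex.im w ≤ 0 := not_lt.mp hw
      have hw' : Complex.im (w + ((N : ℝ) : ℂ)) ≤ 0 := by simpa using hw0
      simp only [Function.comp_apply]
      rw [ofComplex_apply_of_im_nonpos hw', ofComplex_apply_of_im_nonpos hw0]
  have hfhol : MDifferentiable 𝓘(ℂ) 𝓘(ℂ) F := fun τ =>
    UpperHalfPlane.mdifferentiableAt_iff.mpr (hdiff τ)
  have hfbdd : IsBoundedAtImInfty F := by
    obtain ⟨L, hL⟩ := hlim
    exact hL.isBigO_one ℝ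
  refine ⟨UpperHalfPlane.cuspFunction (N : ℝ) F,
    UpperHalfPlane.differentiableOn_cuspFunction_ball hN hfper hfhol hfbdd, fun z => ?_⟩
  exact UpperHalfPlane.eq_cuspFunction z hN.ne' hfper

end Fermat.Agent.S21
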