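/-
S21 / task MAXMOD.  Maximum principle on the compactified modular curve.  (helper13)
-/
import Mathlib
import Fermat.Agent.S21.Disc

set_option autoImplicit false

open UpperHalfPlane CongruenceSubgroup Filter Topology
open scoped MatrixGroups Manifold

namespace Fermat.Agent.S21

/-- holomorphy of `z ↦ F (δ • z)` -/
lemma h13_diffAt_comp_smul (F f : ℍ → ℂ)
    (hder : ∀ τ : ℍ, HasDerivAt (F ∘ ofComplex) (f τ) ↑τ) (δ : SL(2, ℤ)) (τ : ℍ) :
    DifferentiableAt ℂ ((fun z : ℍ => F (δ • z)) ∘ ofComplex) ↑τ := by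
  rw [← mdifferentiableAt_iff]
  have h1 : MDiffAt F (δ • τ) := mdifferentiableAt_iff.mpr (hder (δ • τ)).differentiableAt
  have h2 : MDiff (fun z : ℍ => (δ : GL (Fin 2) ℝ) • z) :=
    mdifferentiable_smul (g := (δ : GL (Fin 2) ℝ)) (by simp)
  exact h1.comp τ (h2 τ)

/-- points of the fundamental domain have imaginary part at least `1/2` -/
lemma h13_half_le_im_of_mem_fd {z : ℍ} (hz : z ∈ ModularGroup.fd) : 1 / 2 ≤ z.im := by
  have h := ModularGroup.three_le_four_mul_im_sq_of_mem_fd hz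
  have hpos := z.im_pos
  nlinarith

/-- every nonzero point of the unit disc is `𝕢 N z` for some `z : ℍ` -/
lemma h13_exists_qParam_eq (N : ℕ) [NeZero N] {q : ℂ} (hq : ‖q‖ < 1) (hq0 : q ≠ 0) :
    ∃ z : ℍ, Function.Periodic.qParam N z = q := by
  have hN : (0 : ℝ) < N := Nat.cast_pos.mpr (NeZero.pos N)
  refine ⟨⟨Function.Periodic.invQParam N q,
    Function.Periodic.im_invQParam_pos_of_norm_lt_one hN hq hq0⟩, ?_⟩
  exact Function.Periodic.qParam_right_inv hN.ne' hq0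

/-- A holomorphic function on `ℍ` whose real part is `Γ₀(N)`-invariant, which is `N`-periodic
at every cusp and has a limit at every cusp, has zero derivative. -/
theorem maxmod (N : ℕ) [NeZero N] (F : ℍ → ℂ) (f : ℍ → ℂ)
    (hder : ∀ τ : ℍ, HasDerivAt (F ∘ ofComplex) (f τ) ↑τ)
    (hinv : ∀ γ : Gamma0 N, ∀ z : ℍ, (F ((γ : SL(2, ℤ)) • z)).re = (F z).re)
    (hper : ∀ (δ : SL(2, ℤ)) (z : ℍ), F (δ • ((N : ℝ) +ᵥ z)) = F (δ • z))
    (hlim : ∀ δ : SL(2, ℤ), ∃ L : ℂ, Tendsto (fun w : ℍ => F (δ • w)) atImInfty (𝓝 L)) :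
    ∀ τ : ℍ, f τ = 0 := by
  have hN : (0 : ℝ) < N := Nat.cast_pos.mpr (NeZero.pos N)
  -- the disc functions
  choose g hg hgq using fun δ : SL(2, ℤ) =>
    exists_disc_function N (fun z : ℍ => F (δ • z)) (h13_diffAt_comp_smul F f hder δ) (hper δ)
      (hlim δ)
  -- `G δ = exp ∘ g δ`
  have hGd : ∀ δ, DifferentiableOn ℂ (fun q => Complex.exp (g δ q)) (Metric.ball 0 1) :=
    fun δ => (hg δ).cexp
  have hGn : ∀ δ (z : ℍ), ‖Complex.exp (g δ (Function.Periodic.qParam N z))‖ =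
      Real.exp (F (δ • z)).re := fun δ z => by rw [hgq, Complex.norm_exp]
  -- the compact disc `K`
  set r : ℝ := Real.exp (-Real.pi / N) with hr
  have hr1 : r < 1 := by
    rw [hr, Real.exp_lt_one_iff]
    exact div_neg_of_neg_of_pos (neg_lt_zero.mpr Real.pi_pos) hN
  have hr0 : 0 < r := Real.exp_pos _
  have hKball : Metric.closedBall (0 : ℂ) r ⊆ Metric.ball 0 1 :=
    Metric.closedBall_subset_ball hr1
  have hKne : (Metric.closedBall (0 : ℂ) r).Nonempty := ⟨0, Metric.mem_closedBall_self hr0.le⟩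
  have hfdK : ∀ z : ℍ, z ∈ ModularGroup.fd →
      Function.Periodic.qParam N z ∈ Metric.closedBall (0 : ℂ) r := by
    intro z hz
    rw [mem_closedBall_zero_iff, Function.Periodic.norm_qParam, hr, Real.exp_le_exp]
    have him := h13_half_le_im_of_mem_fd hz
    rw [div_le_div_iff_of_pos_right hN]
    have : (z : ℂ).im = z.im := rfl
    rw [this]
    nlinarith [Real.pi_pos]
  -- maxima over `K`
  choose q₀ hq₀K hq₀max using fun δ : SL(2, ℤ) =>
    (isCompact_closedBall (0 : ℂ) r).exists_isMaxOn hKne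
      ((hGd δ).continuousOn.mono hKball).norm
  -- invariance of the norms under `Γ₀(N)`
  have hinvG : ∀ (γ : SL(2, ℤ)), γ ∈ Gamma0 N → ∀ (δ : SL(2, ℤ)) (q : ℂ), q ∈ Metric.ball (0 : ℂ) 1 →
      ‖Complex.exp (g (γ * δ) q)‖ = ‖Complex.exp (g δ q)‖ := by
    intro γ hγ δ q hq
    have key : ∀ q : ℂ, q ∈ Metric.ball (0 : ℂ) 1 → q ≠ 0 →
        ‖Complex.exp (g (γ * δ) q)‖ = ‖Complex.exp (g δ q)‖ := by
      intro q hq hq0
      obtain ⟨z, rfl⟩ := h13_exists_qParam_eq N (mem_ball_zero_iff.mp hq) hq0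
      rw [hGn, hGn, mul_smul]
      exact congrArg Real.exp (hinv ⟨γ, hγ⟩ (δ • z))
    by_cases hq0 : q = 0
    · subst hq0
      have hc1 : ContinuousAt (fun q => ‖Complex.exp (g (γ * δ) q)‖) 0 :=
        ((hGd (γ * δ)).continuousOn.continuousAt
          (Metric.ball_mem_nhds 0 one_pos)).norm
      have hc2 : ContinuousAt (fun q => ‖Complex.exp (g δ q)‖) 0 :=
        ((hGd δ).continuousOn.continuousAt (Metric.ball_mem_nhds 0 one_pos)).norm
      have hev : ∀ᶠ q in 𝓝[≠] (0 : ℂ),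
          ‖Complex.exp (g δ q)‖ = ‖Complex.exp (g (γ * δ) q)‖ := by
        have h1 : ∀ᶠ q in 𝓝[≠] (0 : ℂ), q ∈ Metric.ball (0 : ℂ) 1 :=
          nhdsWithin_le_nhds (Metric.ball_mem_nhds 0 one_pos)
        have h2 : ∀ᶠ q in 𝓝[≠] (0 : ℂ), q ≠ 0 := eventually_mem_nhdsWithin
        filter_upwards [h1, h2] with q hq hq0 using (key q hq hq0).symm
      exact tendsto_nhds_unique (hc1.tendsto.mono_left nhdsWithin_le_nhds)
        ((hc2.tendsto.mono_left nhdsWithin_le_nhds).congr' hev)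
    · exact key q hq hq0
  -- the maximal value `M δ`
  set M : SL(2, ℤ) → ℝ := fun δ => ‖Complex.exp (g δ (q₀ δ))‖ with hM
  have hMle : ∀ δ q, q ∈ Metric.closedBall (0 : ℂ) r → ‖Complex.exp (g δ q)‖ ≤ M δ :=
    fun δ q hq => hq₀max δ hq
  have hMinv : ∀ (γ : SL(2, ℤ)), γ ∈ Gamma0 N → ∀ δ, M (γ * δ) = M δ := by
    intro γ hγ δ
    apply le_antisymm
    · calc M (γ * δ) = ‖Complex.exp (g δ (q₀ (γ * δ)))‖ :=
            hinvG γ hγ δ _ (hKball (hq₀K (γ * δ)))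
        _ ≤ M δ := hMle δ _ (hq₀K (γ * δ))
    · calc M δ = ‖Complex.exp (g (γ * δ) (q₀ δ))‖ :=
            (hinvG γ hγ δ _ (hKball (hq₀K δ))).symm
        _ ≤ M (γ * δ) := hMle (γ * δ) _ (hq₀K δ)
  -- a maximising coset
  obtain ⟨δ₀, hδ₀⟩ : ∃ δ₀ : SL(2, ℤ), ∀ δ, M δ ≤ M δ₀ := by
    have : Finite (SL(2, ℤ) ⧸ Gamma0 N) := Subgroup.finite_quotient_of_finiteIndex
    obtain ⟨x₀, hx₀⟩ := Finite.exists_max
      (fun x : SL(2, ℤ) ⧸ Gamma0 N => M (Quotient.out x)⁻¹)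
    refine ⟨(Quotient.out x₀)⁻¹, fun δ => ?_⟩
    have hx := hx₀ (QuotientGroup.mk δ⁻¹)
    have hmem : (Quotient.out (QuotientGroup.mk δ⁻¹ : SL(2, ℤ) ⧸ Gamma0 N))⁻¹ * δ⁻¹ ∈ Gamma0 N := by
      rw [← QuotientGroup.eq]
      exact Quotient.out_eq _
    have heq : M δ = M (Quotient.out (QuotientGroup.mk δ⁻¹ : SL(2, ℤ) ⧸ Gamma0 N))⁻¹ := by
      have := hMinv _ hmem δ
      rw [inv_mul_cancel_right] at this
      exact this.symm
    rw [heq]
    exact hx
  -- the bound on all of `ℍ`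
  have hbound : ∀ z : ℍ, Real.exp (F (δ₀ • z)).re ≤ M δ₀ := by
    intro z
    obtain ⟨γ, hγ⟩ := ModularGroup.exists_smul_mem_fd z
    have e : δ₀ • z = (δ₀ * γ⁻¹) • (γ • z) := by
      rw [mul_smul, inv_smul_smul]
    rw [e, ← hGn]
    exact (hMle _ _ (hfdK _ hγ)).trans (hδ₀ _)
  -- maximum modulus
  have hmax : IsMaxOn (norm ∘ fun q => Complex.exp (g δ₀ q)) (Metric.ball 0 1) (q₀ δ₀) := by
    intro q hq
    simp only [Set.mem_ofPred_eq, Function.comp_apply]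
    by_cases hq0 : q = 0
    · subst hq0
      exact hMle δ₀ 0 (Metric.mem_closedBall_self hr0.le)
    · obtain ⟨z, rfl⟩ := h13_exists_qParam_eq N (mem_ball_zero_iff.mp hq) hq0
      rw [hGn]
      exact hbound z
  have hconst := Complex.eqOn_of_isPreconnected_of_isMaxOn_norm
    (convex_ball (0 : ℂ) 1).isPreconnected Metric.isOpen_ball (hGd δ₀) (hKball (hq₀K δ₀)) hmax
  -- `exp ∘ F` is constant on `ℍ`
  have hexp : ∀ w : ℍ, Complex.exp (F w) = Complex.exp (g δ₀ (q₀ δ₀)) := by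
    intro w
    have hq : Function.Periodic.qParam N (δ₀⁻¹ • w : ℍ) ∈ Metric.ball (0 : ℂ) 1 := by
      rw [mem_ball_zero_iff]
      exact Function.Periodic.norm_qParam_lt_one hN (δ₀⁻¹ • w).im_pos
    have := hconst hq
    simp only [Function.const_apply] at this
    rw [hgq, smul_inv_smul] at this
    exact this
  -- conclusion
  intro τ
  have hd1 : HasDerivAt (fun w : ℂ => Complex.exp ((F ∘ ofComplex) w))
      (Complex.exp ((F ∘ ofComplex) ↑τ) * f τ) ↑τ := (hder τ).cexp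
  have hev : (fun w : ℂ => Complex.exp ((F ∘ ofComplex) w)) =ᶠ[𝓝 (τ : ℂ)]
      fun _ => Complex.exp (g δ₀ (q₀ δ₀)) := by
    filter_upwards [isOpen_upperHalfPlaneSet.mem_nhds τ.im_pos] with w _
    exact hexp (ofComplex w)
  have hd2 : HasDerivAt (fun w : ℂ => Complex.exp ((F ∘ ofComplex) w)) 0 ↑τ :=
    (hasDerivAt_const (τ : ℂ) (Complex.exp (g δ₀ (q₀ δ₀)))).congr_of_eventuallyEq hev
  have h0 := hd1.unique hd2
  exact (mul_eq_zero.mp h0).resolve_left (Complex.exp_ne_zero _)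

end Fermat.Agent.S21
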